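import Mathlib
import Fermat.Agent.Lib.Hasse.Germ
import Fermat.Agent.Lib.Hasse.Quad

/-!
# Lib/Ell, block CD-A : multiplication by `n` is a germ of degree `n²`

On top of the degree theory of `Lib/Hasse` (germs of odd rational maps, parallelogram law), which
is valid over every algebraically closed field with `2 ≠ 0`.
-/

set_option autoImplicit false

namespace Fermat.Agent.Lib.Ell

open WeierstrassCurve WeierstrassCurve.Affine Fermat.Agent.Lib.Hasse Polynomial

variable {K : Type*} [Field K] [DecidableEq K] [IsAlgClosed K] [NeZero (2 : K)] {A B : K}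

/-- LEAF CD-A.  `fun P => n • P = n • id` in the additive group `Pt A B → Pt A B`; `germs A B` is a
subgroup containing `id` (`isRat_id`). -/
theorem isGerm_zsmul (n : ℤ) : IsGerm A B (fun P : Pt A B => n • P) := by
  have hid : (id : Pt A B → Pt A B) ∈ germs A B := mem_germs.2 (Or.inr ⟨_, _, isRat_id⟩)
  have h := (germs A B).zsmul_mem hid n
  have e : n • (id : Pt A B → Pt A B) = fun P : Pt A B => n • P := by
    funext P
    rfl
  rw [e] at h
  exact mem_germs.1 h

/-- LEAF CD-A.  `quad_three` / `quad_aux_zsmul` (through `quad_three (germs A B) (gdeg A B)` with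
`x = id`, `y = z = 0`, or redo the two-line induction) + `gdeg_parallelogram` +
`gdeg id = rdeg X = 1` (`isRat_id.gdeg_eq`, `RatFunc.num_X`, `RatFunc.denom_X`). -/
theorem gdeg_zsmul (hΔ : 16 * (4 * A ^ 3 + 27 * B ^ 2) ≠ 0) (n : ℤ) :
    (gdeg A B (fun P : Pt A B => n • P) : ℤ) = n ^ 2 := by
  have hid : (id : Pt A B → Pt A B) ∈ germs A B := mem_germs.2 (Or.inr ⟨_, _, isRat_id⟩)
  have e : n • (id : Pt A B → Pt A B) = fun P : Pt A B => n • P := by
    funext P
    rfl
  have h := quad_aux_zsmul (H := germs A B) (fun s => (gdeg A B (s : Pt A B → Pt A B) : ℤ))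
    (fun a b => by
      have := gdeg_parallelogram hΔ (mem_germs.1 a.2) (mem_germs.1 b.2)
      show (gdeg A B ((a : Pt A B → Pt A B) + b) : ℤ) + gdeg A B ((a : Pt A B → Pt A B) - b) =
        2 * gdeg A B (a : Pt A B → Pt A B) + 2 * gdeg A B (b : Pt A B → Pt A B)
      exact_mod_cast this) n ⟨id, hid⟩
  have h1 : gdeg A B (id : Pt A B → Pt A B) = 1 := by
    rw [isRat_id.gdeg_eq, rdeg, RatFunc.num_X, RatFunc.denom_X]
    simp
  have h2 : (gdeg A B (n • (id : Pt A B → Pt A B)) : ℤ) =
      n ^ 2 * (gdeg A B (id : Pt A B → Pt A B) : ℤ) := h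
  rw [e, h1] at h2
  rw [h2]
  simp

end Fermat.Agent.Lib.Ell
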