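import Mathlib
import Fermat.Agent.Lib.Hasse.Defs
import Fermat.Agent.Lib.Hasse.RatEval

/-!
# Lib/Ell, block CD-B : generic fibres of a rational function in characteristic zero
-/

set_option autoImplicit false

namespace Fermat.Agent.Lib.Ell

open Fermat.Agent.Lib.Hasse Polynomial

variable {K : Type*} [Field K]

/-- in characteristic zero a polynomial dividing its derivative is constant. -/
theorem CardFiber_natDegree_eq_zero [CharZero K] {p : K[X]} (h : p ∣ derivative p) :
    p.natDegree = 0 := by
  rcases eq_or_ne p 0 with rfl | hp
  · simp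
  · exact derivative_eq_zero.1 (eq_zero_of_dvd_of_degree_lt h (degree_derivative_lt hp))

/-- the Wronskian of two coprime polynomials, not both constant, is non zero. -/
theorem CardFiber_wronskian_ne_zero [CharZero K] {N D : K[X]} (hcop : IsCoprime N D)
    (hd : max N.natDegree D.natDegree ≠ 0) : derivative N * D - N * derivative D ≠ 0 := by
  intro h
  apply hd
  have h' : derivative N * D = N * derivative D := sub_eq_zero.1 h
  have h1 : D ∣ derivative D := hcop.symm.dvd_of_dvd_mul_left (Dvd.intro_left _ h')
  have h2 : N ∣ derivative N := hcop.dvd_of_dvd_mul_right (Dvd.intro _ h'.symm)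
  rw [CardFiber_natDegree_eq_zero h1, CardFiber_natDegree_eq_zero h2, max_self]

/-- the fibre is the set of roots of `N - t D`. -/
theorem CardFiber_mem_iff (r : RatFunc K) (t c : K) :
    (RegAt c r ∧ ev c r = t) ↔ (r.num - C t * r.denom).IsRoot c := by
  rw [IsRoot.def, eval_sub, eval_mul, eval_C, sub_eq_zero, ev_eq_div, RegAt]
  constructor
  · rintro ⟨h1, h2⟩
    rwa [div_eq_iff h1] at h2
  · intro h
    have h1 : r.denom.eval c ≠ 0 := by
      intro h0
      obtain ⟨a, b, hab⟩ := r.isCoprime_num_denom
      have := congrArg (eval c) hab
      rw [eval_add, eval_mul, eval_mul, h, h0, mul_zero, mul_zero, mul_zero, add_zero,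
        eval_one] at this
      exact zero_ne_one this
    exact ⟨h1, by rwa [div_eq_iff h1]⟩

variable [IsAlgClosed K]

/-- LEAF CD-B (pure `RatFunc`/`Polynomial`, characteristic zero).  A rational function of degree
`d` takes almost every value exactly `d` times, at points where it is regular.
Proof: `r = N/D` reduced (`RatFunc.num`, `denom`, coprime).  For `t` outside a finite set the
polynomial `G_t = N - t D` has degree `d` (exclude at most one `t`), and it is separable: a double
root `c` has `D(c) ≠ 0` (coprimality) and `(N' D - N D')(c) = 0`; `N' D - N D' ≠ 0` because `r` is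
not constant and `CharZero` (if `N' D = N D'` then `D ∣ D'` and `N ∣ N'` by coprimality, so both
are constant); so `c` lies in a finite set and `t = N(c)/D(c)` lies in a finite set.  Then
`card_roots` of a separable split polynomial = degree. -/
theorem eventually_card_fiber [CharZero K] (r : RatFunc K) :
    ∀ᶠ t in Filter.cofinite, Nat.card {c : K // RegAt c r ∧ ev c r = t} = rdeg r := by
  classical
  set N := r.num with hN
  set D := r.denom with hD
  have hcop : IsCoprime N D := r.isCoprime_num_denom
  have hD0 : D ≠ 0 := r.denom_ne_zero
  have hd : rdeg r = max N.natDegree D.natDegree := rfl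
  -- (1) the degree
  have h1 : ∀ᶠ t in Filter.cofinite, (N - C t * D).coeff (rdeg r) ≠ 0 := by
    rw [Filter.eventually_cofinite]
    by_cases hDc : D.coeff (rdeg r) = 0
    · have hNc : N.coeff (rdeg r) ≠ 0 := by
        rcases le_total N.natDegree D.natDegree with hle | hle
        · exfalso
          rw [hd, max_eq_right hle] at hDc
          exact hD0 (leadingCoeff_eq_zero.1 hDc)
        · rw [hd, max_eq_left hle]
          intro h0
          have hN0 : N = 0 := leadingCoeff_eq_zero.1 h0
          rw [hN0, natDegree_zero] at hle
          rw [hd, hN0, natDegree_zero, max_eq_left hle] at hDc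
          have : D.natDegree = 0 := Nat.le_zero.1 hle
          apply hD0
          rw [eq_C_of_natDegree_eq_zero this, hDc, C_0]
      convert Set.finite_empty (α := K)
      ext t
      simp [hDc, hNc]
    · refine (Set.finite_singleton (N.coeff (rdeg r) / D.coeff (rdeg r))).subset ?_
      intro t ht
      simp only [Set.mem_ofPred_eq, not_not, coeff_sub, coeff_C_mul, sub_eq_zero] at ht
      rw [Set.mem_singleton_iff, eq_div_iff hDc, ht]
  -- (2) separability
  have h2 : ∀ᶠ t in Filter.cofinite, rdeg r ≠ 0 → (N - C t * D).Separable := by
    by_cases hd0 : rdeg r = 0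
    · exact Filter.Eventually.of_forall fun t h => absurd hd0 h
    have hW : derivative N * D - N * derivative D ≠ 0 :=
      CardFiber_wronskian_ne_zero hcop (by rwa [← hd])
    rw [Filter.eventually_cofinite]
    refine ((derivative N * D - N * derivative D).roots.toFinset.image
      (fun c => N.eval c / D.eval c)).finite_toSet.subset ?_
    intro t ht
    simp only [Set.mem_ofPred_eq, Classical.not_imp] at ht
    have hns := ht.2
    rw [Polynomial.Separable, isCoprime_iff_aeval_ne_zero_of_isAlgClosed (k := K) K] at hns
    push Not at hns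
    obtain ⟨c, hc1, hc2⟩ := hns
    simp only [coe_aeval_eq_eval] at hc1 hc2
    have hroot : (r.num - C t * r.denom).IsRoot c := hc1
    obtain ⟨hreg, hev⟩ := (CardFiber_mem_iff r t c).2 hroot
    rw [ev_eq_div] at hev
    rw [Finset.coe_image, Set.mem_image]
    refine ⟨c, ?_, hev⟩
    rw [Finset.mem_coe, Multiset.mem_toFinset, mem_roots hW, IsRoot.def]
    rw [eval_sub, eval_mul, eval_C, sub_eq_zero] at hc1
    rw [derivative_sub, derivative_mul, derivative_C, zero_mul, zero_add, eval_sub, eval_mul,
      eval_C, sub_eq_zero] at hc2
    rw [eval_sub, eval_mul, eval_mul, hc1, hc2]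
    ring
  filter_upwards [h1, h2] with t ht1 ht2
  set G := N - C t * D with hG
  have hG0 : G ≠ 0 := by
    intro h0
    rw [h0, coeff_zero] at ht1
    exact ht1 rfl
  have hdeg : G.natDegree = rdeg r := by
    refine natDegree_eq_of_le_of_coeff_ne_zero ?_ ht1
    refine (natDegree_sub_le _ _).trans ?_
    rw [hd]
    exact max_le_max le_rfl (natDegree_C_mul_le _ _)
  have hcard : Nat.card {c : K // RegAt c r ∧ ev c r = t} = G.roots.toFinset.card := by
    have e : {c : K // RegAt c r ∧ ev c r = t} ≃ {c : K // c ∈ G.roots.toFinset} :=
      Equiv.subtypeEquivRight fun c => by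
        rw [CardFiber_mem_iff, Multiset.mem_toFinset, mem_roots hG0]
    rw [Nat.card_congr e, Nat.card_eq_fintype_card, Fintype.card_coe]
  rw [hcard]
  by_cases hd0 : rdeg r = 0
  · rw [hd0]
    have h3 := (Multiset.toFinset_card_le G.roots).trans (card_roots' G)
    omega
  · rw [Multiset.toFinset_card_of_nodup (nodup_roots (ht2 hd0)),
      ← (IsAlgClosed.splits G).natDegree_eq_card_roots, hdeg]

end Fermat.Agent.Lib.Ell
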