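import Mathlib
import Fermat.Agent.Lib.Ell.CardDeg
import Fermat.Agent.Lib.Ell.CardFiber

/-!
# Lib/Ell, block CD : `#E[n] = n²` over an algebraically closed field of characteristic zero

On top of the degree theory of `Lib/Hasse` (germs of odd rational maps, parallelogram law), which
is valid over every algebraically closed field with `2 ≠ 0`.
-/

set_option autoImplicit false

namespace Fermat.Agent.Lib.Ell

open WeierstrassCurve WeierstrassCurve.Affine Fermat.Agent.Lib.Hasse Polynomial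

variable {K : Type*} [Field K] [DecidableEq K] [IsAlgClosed K] [NeZero (2 : K)] {A B : K}

/-- the `x`-coordinate of a point (junk value `0` at the origin). -/
def Card_xc : Pt A B → K
  | .zero => 0
  | .some x _ _ => x

omit [DecidableEq K] [IsAlgClosed K] [NeZero (2 : K)] in
theorem Card_xc_some (x y : K) (h : (sw A B).Nonsingular x y) :
    Card_xc (.some x y h : Pt A B) = x := rfl

/-- The fibre of a homomorphism over a point of its range has the cardinality of the kernel. -/
theorem Card_card_fiber {G : Type*} [AddCommGroup G] (n : ℕ) (P₀ : G) :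
    Nat.card {P : G // n • P = 0} = Nat.card {P : G // n • P = n • P₀} := by
  refine Nat.card_congr
    { toFun := fun P => ⟨P.1 + P₀, by rw [smul_add, P.2, zero_add]⟩
      invFun := fun P => ⟨P.1 - P₀, by rw [smul_sub, P.2, sub_self]⟩
      left_inv := fun P => Subtype.ext (by simp)
      right_inv := fun P => Subtype.ext (by simp) }

omit [DecidableEq K] in
/-- The count of a generic fibre of a map which is `(x, y) ↦ (r(x), s(x) y)` at the relevant points. -/
theorem Card_card_fiber_eq (ψ : Pt A B → Pt A B) (r s : RatFunc K) (hψ0 : ψ 0 = 0)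
    {t y₀ : K} (h₀ : (sw A B).Nonsingular t y₀) (ht0 : t ^ 3 + A * t + B ≠ 0)
    (Good : K → Prop)
    (hGood : ∀ c, Good c → (∀ (y : K) (hy : (sw A B).Nonsingular c y),
      ∃ hy', ψ (.some c y hy) = .some (ev c r) (ev c s * y) hy') ∧ c ^ 3 + A * c + B ≠ 0 ∧
        RegAt c r)
    (hall : ∀ c, ev c r = t → Good c)
    (hfib : ∀ P, ψ P = .some t y₀ h₀ → ∀ c y h, P = .some c y h → Good c) :
    Nat.card {P : Pt A B // ψ P = .some t y₀ h₀} = Nat.card {c : K // RegAt c r ∧ ev c r = t} := by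
  have hy₀ : y₀ ^ 2 = t ^ 3 + A * t + B := (sw_equation_iff _ _).mp h₀.1
  have hy₀0 : y₀ ≠ 0 := by
    rintro rfl
    apply ht0
    rw [← hy₀]; ring
  -- description of the elements of the fibre
  have hdesc : ∀ P, ψ P = .some t y₀ h₀ → ∃ c y h, P = .some c y h ∧ Good c ∧ ev c r = t ∧
      ev c s * y = y₀ := by
    intro P hP
    rcases P with _ | ⟨c, y, h⟩
    · exfalso
      have : ψ 0 = .some t y₀ h₀ := hP
      rw [hψ0] at this
      exact Point.some_ne_zero _ this.symm
    · have hg := hfib _ hP c y h rfl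
      obtain ⟨hy', e⟩ := (hGood c hg).1 y h
      rw [hP, Point.some.injEq] at e
      exact ⟨c, y, h, rfl, hg, e.1.symm, e.2.symm⟩
  refine Nat.card_congr (Equiv.ofBijective
    (fun P => ⟨Card_xc P.1, by
      obtain ⟨c, y, h, e, hg, hc, -⟩ := hdesc P.1 P.2
      rw [e, Card_xc_some]
      exact ⟨(hGood c hg).2.2, hc⟩⟩) ⟨?_, ?_⟩)
  · rintro ⟨P, hP⟩ ⟨P', hP'⟩ hPP
    obtain ⟨c, y, h, rfl, hg, hc, hy⟩ := hdesc P hP
    obtain ⟨c', y', h', rfl, hg', hc', hy'⟩ := hdesc P' hP'
    have hcc : c = c' := congrArg Subtype.val hPP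
    subst hcc
    have hs0 : ev c s ≠ 0 := by
      intro h0
      rw [h0, zero_mul] at hy
      exact hy₀0 hy.symm
    have hyy : y = y' := mul_left_cancel₀ hs0 (hy.trans hy'.symm)
    subst hyy
    rfl
  · rintro ⟨c, hreg, hc⟩
    have hg := hall c hc
    obtain ⟨hrat, hc0, -⟩ := hGood c hg
    obtain ⟨y, hy⟩ := exists_sq (A := A) (B := B) c
    have hy0 : y ≠ 0 := by
      rintro rfl
      apply hc0
      rw [← hy]; ring
    have hns : (sw A B).Nonsingular c y := sw_nonsingular_of hy hy0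
    have hns' : (sw A B).Nonsingular c (-y) := sw_nonsingular_of (by rw [← hy]; ring) (neg_ne_zero.mpr hy0)
    obtain ⟨hy1, e1⟩ := hrat y hns
    obtain ⟨hy2, e2⟩ := hrat (-y) hns'
    have hsq : (ev c s * y) ^ 2 = y₀ ^ 2 := by
      rw [(sw_equation_iff _ _).mp hy1.1, hc, hy₀]
    rcases sq_eq_sq_iff_eq_or_eq_neg.mp hsq with h3 | h3
    · refine ⟨⟨.some c y hns, ?_⟩, rfl⟩
      rw [e1, Point.some.injEq]
      exact ⟨hc, h3⟩
    · refine ⟨⟨.some c (-y) hns', ?_⟩, rfl⟩
      rw [e2, Point.some.injEq]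
      exact ⟨hc, by rw [mul_neg, h3, neg_neg]⟩

/-- LEAF CD-C.  Let `ψ = n •`, `IsRat ψ r s` with `rdeg r = n²` (`n ≠ 0`, so it is not `IsZ`:
`gdeg = n² ≠ 0`, `IsZ.gdeg_eq`).  Choose `t` generic: (i) the fibre `{c | ev c r = t}` has `n²`
elements, (ii) all its elements `c` are in the cofinite set where `IsRat` holds and `c³+Ac+B ≠ 0`
(the images under `r` of finitely many bad `c` are finitely many bad `t`),
(iii) `t³+At+B ≠ 0`.  Fix `Q = (t, y₀)`.  For each `c` in the fibre exactly one of the two points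
`(c, ±y)` is mapped to `Q` (they are mapped to `(t, ± s(c) y)`, and `(s(c) y)² = y₀² ≠ 0`).  Every
`P` with `n • P = Q` is of this form (`P ≠ 0`; if its `x`-coordinate were a bad `c` ... exclude by
the choice of `t`: add to the bad `t` the `x`-coordinates of `n • P` for the finitely many `P` with
bad `x`-coordinate).  So `#ψ⁻¹(Q) = n²`, and `ψ⁻¹(Q)` is a coset of `ker ψ`. -/
theorem card_torsion [CharZero K] (hΔ : 16 * (4 * A ^ 3 + 27 * B ^ 2) ≠ 0) (n : ℕ) (hn : 0 < n) :
    Nat.card {P : Pt A B // n • P = 0} = n ^ 2 := by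
  classical
  have hinf := infinite_Pt (A := A) (B := B)
  have hψeq : (fun P : Pt A B => ((n : ℕ) : ℤ) • P) = fun P : Pt A B => n • P := by
    funext P
    exact natCast_zsmul P n
  have hgerm : IsGerm A B (fun P : Pt A B => n • P) := hψeq ▸ isGerm_zsmul (n : ℤ)
  have hdeg : gdeg A B (fun P : Pt A B => n • P) = n ^ 2 := by
    have := gdeg_zsmul (A := A) (B := B) hΔ (n : ℤ)
    rw [hψeq] at this
    exact_mod_cast this
  have hn2 : 0 < n ^ 2 := by positivity
  obtain ⟨r, s, H⟩ : ∃ r s, IsRat A B (fun P : Pt A B => n • P) r s := by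
    rcases hgerm with hZ | h
    · exfalso
      rw [hZ.gdeg_eq] at hdeg
      omega
    · exact h
  have hr : rdeg r = n ^ 2 := by rw [← H.gdeg_eq, hdeg]
  set Good : K → Prop := fun c => (∀ (y : K) (hy : (sw A B).Nonsingular c y),
      ∃ hy', n • (.some c y hy : Pt A B) = .some (ev c r) (ev c s * y) hy') ∧
        c ^ 3 + A * c + B ≠ 0 ∧ RegAt c r with hGooddef
  have hgood : ∀ᶠ c in Filter.cofinite, Good c :=
    H.and (eventually_cubic_ne_zero.and (eventually_regAt r))
  have ht : ∀ᶠ t in Filter.cofinite, Nat.card {c : K // RegAt c r ∧ ev c r = t} = n ^ 2 ∧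
      (∀ c, ev c r = t → Good c) ∧ t ^ 3 + A * t + B ≠ 0 := by
    have h1 := eventually_card_fiber r
    have h2 : ∀ᶠ t in Filter.cofinite, ∀ c, ev c r = t → Good c := by
      rw [Filter.eventually_cofinite] at hgood ⊢
      refine (hgood.image (fun c => ev c r)).subset ?_
      intro t ht
      simp only [Set.mem_ofPred_eq, not_forall] at ht
      obtain ⟨c, hc, hbad⟩ := ht
      exact ⟨c, hbad, hc⟩
    filter_upwards [h1, h2, eventually_cubic_ne_zero (A := A) (B := B)] with t a b c
    exact ⟨by rw [a, hr], b, c⟩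
  have hQ1 : ∀ᶠ Q : Pt A B in Filter.cofinite, ∀ t y h, Q = .some t y h →
      (Nat.card {c : K // RegAt c r ∧ ev c r = t} = n ^ 2 ∧
      (∀ c, ev c r = t → Good c) ∧ t ^ 3 + A * t + B ≠ 0) := by
    apply eventually_point
    filter_upwards [ht] with c hc y hy t y' h' e
    rw [Point.some.injEq] at e
    rw [← e.1]
    exact hc
  have hP : ∀ᶠ P : Pt A B in Filter.cofinite, ∀ c y h, P = .some c y h → Good c := by
    apply eventually_point
    filter_upwards [hgood] with c hc y hy t y' h' e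
    rw [Point.some.injEq] at e
    rw [← e.1]
    exact hc
  have hQ2 : ∀ᶠ Q : Pt A B in Filter.cofinite, ∀ P : Pt A B, n • P = Q →
      ∀ c y h, P = .some c y h → Good c := by
    rw [Filter.eventually_cofinite] at hP ⊢
    refine (hP.image (fun P : Pt A B => n • P)).subset ?_
    intro Q hQ
    rw [Set.mem_ofPred_eq, not_forall] at hQ
    obtain ⟨P, hPQ⟩ := hQ
    rw [Classical.not_imp] at hPQ
    exact ⟨P, hPQ.2, hPQ.1⟩
  have hQ3 : ∀ᶠ Q : Pt A B in Filter.cofinite, Q ≠ 0 := by
    rw [Filter.eventually_cofinite]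
    simp
  obtain ⟨Q, hQ1, hQ2, hQ3⟩ := (hQ1.and (hQ2.and hQ3)).exists
  rcases Q with _ | ⟨t, y₀, h₀⟩
  · exact absurd rfl hQ3
  obtain ⟨hcard, hall, ht0⟩ := hQ1 t y₀ h₀ rfl
  have hfc := Card_card_fiber_eq (fun P : Pt A B => n • P) r s (smul_zero n) h₀ ht0 Good
    (fun c hc => hc) hall hQ2
  rw [hcard] at hfc
  -- the fibre is nonempty
  have hne : Nonempty {P : Pt A B // n • P = .some t y₀ h₀} := by
    by_contra hcon
    rw [not_nonempty_iff] at hcon
    rw [Nat.card_of_isEmpty] at hfc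
    omega
  obtain ⟨P₀, hP₀⟩ := hne
  rw [Card_card_fiber n P₀, hP₀]
  exact hfc

theorem finite_torsion [CharZero K] (hΔ : 16 * (4 * A ^ 3 + 27 * B ^ 2) ≠ 0) (n : ℕ)
    (hn : 0 < n) : Finite {P : Pt A B // n • P = 0} :=
  Nat.finite_of_card_ne_zero (by rw [card_torsion hΔ n hn]; positivity)

end Fermat.Agent.Lib.Ell
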