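import Fermat.Agent.Lib.Ell.VarChange
import Fermat.Agent.Lib.Hasse.Defs
import Fermat.Prelude.Def_FLTPrelim_Modularity
import Fermat.Prelude.Def_FLTPrelim_GaloisRep

/-!
# Lib/Ell, block VG : changes of variables over `ℚ` are Galois equivariant; the short model
-/

set_option autoImplicit false

namespace Fermat.Agent.Lib.Ell

open WeierstrassCurve WeierstrassCurve.Affine Fermat.Agent.Lib.Hasse

variable {K : Type*} [Field K] [DecidableEq K] [Algebra ℚ K]

/-- the isomorphism `W'(K) ≃ E(K)` attached to a change of variables over `ℚ`. -/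
noncomputable def vcGal {E W' : WeierstrassCurve ℚ} (C : VariableChange ℚ) (h : C • E = W') :
    (W'⁄K).Point ≃+ (E⁄K).Point :=
  vcEquiv (W := E.map (algebraMap ℚ K)) (W' := W'.map (algebraMap ℚ K)) (C.map (algebraMap ℚ K))
    (by rw [map_variableChange, h])

/-- LEAF VG-A.  Cases on `P`; `vcEquiv_some`, `Point.map_some` (the action is
`Point.map σ.toAlgHom`, `algEquiv_smul_def`), `σ` fixes `algebraMap ℚ K _` (`AlgEquiv.commutes`);
`vcX`, `vcY`, `VariableChange.map` unfold. -/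
theorem vcGal_smul {E W' : WeierstrassCurve ℚ} (C : VariableChange ℚ) (h : C • E = W')
    (σ : K ≃ₐ[ℚ] K) (P : (W'⁄K).Point) :
    vcGal (K := K) C h (σ • P) = σ • vcGal (K := K) C h P := by
  rcases P with _ | ⟨x, y, hxy⟩
  · have h0 : (σ • (0 : (W'⁄K).Point)) = 0 := rfl
    have h1 : vcGal (K := K) C h (0 : (W'⁄K).Point) = 0 := map_zero _
    show vcGal (K := K) C h (σ • (0 : (W'⁄K).Point)) = σ • vcGal (K := K) C h (0 : (W'⁄K).Point)
    rw [h0, h1]
    rfl
  · obtain ⟨h1, e1⟩ := vcEquiv_some (W := E.map (algebraMap ℚ K)) (W' := W'.map (algebraMap ℚ K))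
      (C.map (algebraMap ℚ K)) (by rw [map_variableChange, h]) x y hxy
    have hs : σ • (Point.some x y hxy : (W'⁄K).Point) =
        Point.some (σ x) (σ y) ((Affine.baseChange_nonsingular W' σ.toAlgHom.injective ..).mpr hxy) := rfl
    obtain ⟨h2, e2⟩ := vcEquiv_some (W := E.map (algebraMap ℚ K)) (W' := W'.map (algebraMap ℚ K))
      (C.map (algebraMap ℚ K)) (by rw [map_variableChange, h]) (σ x) (σ y)
      ((Affine.baseChange_nonsingular W' σ.toAlgHom.injective ..).mpr hxy)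
    have e1' : vcGal (K := K) C h (Point.some x y hxy : (W'⁄K).Point) =
        (Point.some _ _ h1 : (E⁄K).Point) := e1
    have e2' : vcGal (K := K) C h (Point.some (σ x) (σ y)
        ((Affine.baseChange_nonsingular W' σ.toAlgHom.injective ..).mpr hxy) : (W'⁄K).Point) =
        (Point.some _ _ h2 : (E⁄K).Point) := e2
    rw [hs, e1', e2']
    have hs' : σ • (Point.some _ _ h1 : (E⁄K).Point) =
        Point.some (σ (vcX (C.map (algebraMap ℚ K)) x)) (σ (vcY (C.map (algebraMap ℚ K)) x y))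
          ((Affine.baseChange_nonsingular E σ.toAlgHom.injective ..).mpr h1) := rfl
    rw [hs']
    have hX : vcX (C.map (algebraMap ℚ K)) (σ x) = σ (vcX (C.map (algebraMap ℚ K)) x) := by
      simp [vcX, VariableChange.map]
    have hY : vcY (C.map (algebraMap ℚ K)) (σ x) (σ y) =
        σ (vcY (C.map (algebraMap ℚ K)) x y) := by
      simp [vcY, VariableChange.map]
    simp only [hX, hY]

/-- LEAF VG-B.  The short model: explicit change of variables `u = 1/6`, `r = -b₂/12`,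
`s = -a₁/2`, `t = -(a₃ + r a₁)/2` (check the signs with `variableChange_def`; `ext <;> simp [sw]`,
`field_simp`, `ring`; `c₄, c₆, b₂, b₄, b₆` unfolded). -/
theorem exists_short_change (W : WeierstrassCurve ℚ) :
    ∃ C : VariableChange ℚ, C • W = sw (-27 * W.c₄) (-54 * W.c₆) := by
  refine ⟨⟨Units.mk0 (1 / 6) (by norm_num), -W.b₂ / 12, -W.a₁ / 2,
    -(W.a₃ + (-W.b₂ / 12) * W.a₁) / 2⟩, ?_⟩
  rw [variableChange_def]
  have hu : ((Units.mk0 (1 / 6 : ℚ) (by norm_num))⁻¹ : ℚˣ).val = 6 := by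
    rw [Units.val_inv_eq_inv_val, Units.val_mk0]
    norm_num
  ext
  · simp only [sw, hu]
    ring
  · simp only [sw, hu, b₂]
    ring
  · simp only [sw, hu, b₂]
    ring
  · simp only [sw, hu, c₄, b₂, b₄]
    ring
  · simp only [sw, hu, c₆, b₂, b₄, b₆]
    ring

/-- LEAF VG-B (assembly).  From `IsIntegralModelOf` (`∃ C, C • E = W_ℚ`), `exists_short_change`
for `W_ℚ`, `map_c₄`, `map_c₆`, `vcGal`, `vcGal_smul`, composition (and `.symm`). -/
theorem exists_short_equiv (E : WeierstrassCurve ℚ) (W : WeierstrassCurve ℤ)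
    (hW : W.IsIntegralModelOf E) :
    ∃ e : (E⁄K).Point ≃+
        ((sw (((-27 * W.c₄ : ℤ) : ℚ)) (((-54 * W.c₆ : ℤ) : ℚ)) : WeierstrassCurve ℚ)⁄K).Point,
      ∀ (σ : K ≃ₐ[ℚ] K) (P : (E⁄K).Point), e (σ • P) = σ • e P := by
  obtain ⟨C1, h1⟩ := hW
  obtain ⟨C2, h2⟩ := exists_short_change (W.map (Int.castRingHom ℚ))
  have h3 : C2 • W.map (Int.castRingHom ℚ) =
      sw (((-27 * W.c₄ : ℤ) : ℚ)) (((-54 * W.c₆ : ℤ) : ℚ)) := by
    rw [h2, map_c₄, map_c₆]
    simp
  refine ⟨(vcGal (K := K) C1 h1).symm.trans (vcGal (K := K) C2 h3).symm, fun σ P => ?_⟩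
  rw [AddEquiv.trans_apply, AddEquiv.trans_apply, AddEquiv.symm_apply_eq, vcGal_smul,
    AddEquiv.apply_symm_apply, AddEquiv.symm_apply_eq, vcGal_smul, AddEquiv.apply_symm_apply]

end Fermat.Agent.Lib.Ell
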