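import Fermat.Agent.Lib.Ell.TorsSub
import Fermat.Agent.Lib.Ell.VarChangeGal

/-!
# Lib/Ell, leaf CQ : `#E(ℚ̄)[n] = n²` for every elliptic curve over `ℚ` (no integral model needed)
-/

set_option autoImplicit false

namespace Fermat.Agent.Lib.Ell

open WeierstrassCurve WeierstrassCurve.Affine Fermat.Agent.Lib.Hasse

theorem CardRat_aux (a b : ℚ) (hΔ : 4 * a ^ 3 + 27 * b ^ 2 ≠ 0) (n : ℕ) (hn : 0 < n)
    (W : Affine Qb) (hW : W = sw ((a : Qb)) ((b : Qb))) :
    Nat.card {P : W.Point // n • P = 0} = n ^ 2 := by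
  subst hW
  have hΔ' : (16 : Qb) * (4 * (a : Qb) ^ 3 + 27 * (b : Qb) ^ 2) ≠ 0 := by
    have h : ((16 * (4 * a ^ 3 + 27 * b ^ 2) : ℚ) : Qb) ≠ 0 :=
      Rat.cast_ne_zero.2 (mul_ne_zero (by norm_num) hΔ)
    push_cast at h
    exact h
  exact card_torsion hΔ' n hn

theorem CardRat_baseChange (a b : ℚ) :
    (((sw a b : WeierstrassCurve ℚ))⁄Qb) = sw ((a : Qb)) ((b : Qb)) := by
  ext <;> simp [sw, WeierstrassCurve.baseChange]

/-- LEAF CQ.  `exists_short_change E` gives `C • E = sw a b` over `ℚ` (`a = -27c₄`, `b = -54c₆`);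
`vcGal C _ : ((sw a b)⁄Qb).Point ≃+ (E⁄Qb).Point`; `(sw a b)⁄Qb = sw (a : Qb) (b : Qb)`
(`ext <;> simp [sw, baseChange]`, then generalise the curve and `subst`); `card_torsion` with
`16(4a³+27b²) ≠ 0` from `c₄³ - c₆² = 1728 Δ` (`c_relation`) and injectivity of `ℚ → Qb`.
An additive equivalence restricts to an equivalence of the `n`-torsion
(`Submodule.mem_torsionBy_iff`, `natCast_zsmul`, `Nat.card_congr`). -/
theorem card_torsionBy_rat (E : WeierstrassCurve ℚ) (hE : E.Δ ≠ 0) (n : ℕ) (hn : 0 < n) :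
    Nat.card (Submodule.torsionBy ℤ (E⁄Qb).Point n) = n ^ 2 := by
  obtain ⟨C, hC⟩ := exists_short_change E
  have hΔ : 4 * (-27 * E.c₄) ^ 3 + 27 * (-54 * E.c₆) ^ 2 ≠ 0 := by
    have h := E.c_relation
    have h2 : 4 * (-27 * E.c₄) ^ 3 + 27 * (-54 * E.c₆) ^ 2 = -78732 * 1728 * E.Δ := by
      linear_combination (-78732 : ℚ) * (-h)
    rw [h2]
    exact mul_ne_zero (by norm_num) hE
  rw [← CardRat_aux _ _ hΔ n hn _ (CardRat_baseChange _ _)]
  refine Nat.card_congr ((vcGal (K := Qb) C hC).symm.toEquiv.subtypeEquiv ?_)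
  intro P
  rw [Submodule.mem_torsionBy_iff]
  have h1 : ((n : ℕ) : ℤ) • P = n • P := natCast_zsmul P n
  rw [h1]
  constructor
  · intro h
    have : (vcGal (K := Qb) C hC).symm (n • P) = 0 := by rw [h, map_zero]
    rwa [map_nsmul] at this
  · intro h
    apply (vcGal (K := Qb) C hC).symm.injective
    rw [map_nsmul, map_zero]
    exact h

theorem card_nsmul_eq_zero_rat (E : WeierstrassCurve ℚ) (hE : E.Δ ≠ 0) (n : ℕ) (hn : 0 < n) :
    Nat.card {P : (E⁄Qb).Point // n • P = 0} = n ^ 2 := by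
  rw [← card_torsionBy_rat E hE n hn]
  refine Nat.card_congr (Equiv.subtypeEquivRight fun P => ?_)
  rw [Submodule.mem_torsionBy_iff, Nat.cast_smul_eq_nsmul]

end Fermat.Agent.Lib.Ell
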