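import Fermat.Agent.Lib.Ell.TorsSub
import Fermat.Agent.Lib.Hasse.Glue
import Fermat.Agent.GAL.INJ.ResAlgClosed
import Fermat.Agent.Lib.FrobeniusVal

/-!
# Lib/Ell, block FS-C : good position at `ℓ` implies the Frobenius relation
-/

set_option autoImplicit false

namespace Fermat.Agent.Lib.Ell

open WeierstrassCurve WeierstrassCurve.Affine Fermat.Agent.Lib.Hasse

theorem FrobCore_intCast_unit (𝒜 : ValuationSubring Qb) {ℓ : ℕ} (hℓ : ℓ.Prime)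
    (h𝒜 : 𝒜.LiesOverPrime ℓ) {m : ℤ} (hm : ¬ (ℓ : ℤ) ∣ m) :
    IsLocalRing.residue 𝒜 (m : 𝒜) ≠ 0 := by
  rw [Ne, IsLocalRing.residue_eq_zero_iff, ← ValuationSubring.coe_mem_nonunits_iff]
  have := Fermat.Agent.Lib.FrobeniusVal.intCast_not_mem_nonunits 𝒜 hℓ h𝒜 hm
  simpa using this

theorem FrobCore_charP (𝒜 : ValuationSubring Qb) {ℓ : ℕ} (hℓ : ℓ.Prime)
    (h𝒜 : 𝒜.LiesOverPrime ℓ) : CharP (IsLocalRing.ResidueField 𝒜) ℓ := by
  have h0 : ((ℓ : ℕ) : IsLocalRing.ResidueField 𝒜) = 0 := by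
    rw [← map_natCast (IsLocalRing.residue 𝒜), IsLocalRing.residue_eq_zero_iff,
      ← ValuationSubring.coe_mem_nonunits_iff]
    have h : (ℓ : Qb) ∈ 𝒜.nonunits := h𝒜
    simpa using h
  exact (CharP.charP_iff_prime_eq_zero hℓ).2 h0

/-- the action of a Frobenius element on integral elements. -/
theorem FrobCore_residue_map (𝒜 : ValuationSubring Qb) {ℓ : ℕ} (σ : Qb ≃ₐ[ℚ] Qb)
    (hσ : 𝒜.IsFrobeniusAt σ ℓ) (x : 𝒜) :
    ∃ x' : 𝒜, (x' : Qb) = σ x ∧ IsLocalRing.residue 𝒜 x' = IsLocalRing.residue 𝒜 x ^ ℓ := by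
  refine ⟨(⟨σ, hσ.mem_decompositionSubgroup⟩ : 𝒜.decompositionSubgroup ℚ) • x, rfl, ?_⟩
  rw [IsLocalRing.ResidueField.residue_smul, hσ.smul_residue_eq]

/-- LEAF FS-C.  (~250 lines.)  `k := ResidueField 𝒜` is algebraically closed
(`GAL.INJ.isAlgClosed_residueField`), of characteristic `ℓ` (`(ℓ : Qb) ∈ 𝒜.nonunits`), so
`Algebra (ZMod ℓ) k` (`ZMod.algebra`).  `Wl : Affine (ZMod ℓ) := sw A B`, `Wk := Wl⁄k`,
`Fr := Point.map (W' := Wl) (FiniteField.frobeniusAlgHom (ZMod ℓ) k)` as in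
`Lib.Hasse.frobenius_quadratic_zmod`; `glue_core` gives `Fr² - a Fr + ℓ = 0` on `Wk.Point`.
`exists_red` (with `a = (A : 𝒜)`, `b = (B : 𝒜)`, `residue (A : 𝒜) = algebraMap (ZMod ℓ) k A` by
`map_intCast`) gives an injective `red : H →+ Wk.Point`, `H = torsSub _ n`.  `σ` preserves `H`, and
`red (σ P) = Fr (red P)`: for `P = (x, y)`, `σ P = (σ x, σ y)` and
`residue ⟨σ x, _⟩ = (residue x) ^ ℓ`, which is `IsFrobeniusAt.smul_residue_eq` (the action of the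
decomposition group on the residue field satisfies `g • residue x = residue (g • x)`, by `rfl` or
`IsLocalRing.ResidueField.residue_smul`; see `S37/RedEquiv.lean` for the same manipulation).
Apply `red` to `R := σ²P - aσP + ℓP ∈ H`: `red R = 0`, so `R = 0`. -/
theorem frob_rel_of_goodPos (A B : ℤ) (n : ℕ) (ℓ : ℕ) [Fact ℓ.Prime] (hℓ2 : ℓ ≠ 2)
    (hΔ : ¬ (ℓ : ℤ) ∣ 4 * A ^ 3 + 27 * B ^ 2)
    (𝒜 : ValuationSubring Qb) (h𝒜 : 𝒜.LiesOverPrime ℓ) (σ : Qb ≃ₐ[ℚ] Qb)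
    (hσ : 𝒜.IsFrobeniusAt σ ℓ)
    (hG : GoodPos 𝒜 ((swQ A B)⁄Qb) (torsSub ((swQ A B)⁄Qb) n))
    (P : ((swQ A B)⁄Qb).Point) (hP : n • P = 0) :
    σ • σ • P - ((ℓ : ℤ) + 1 - (Nat.card (Pt (A : ZMod ℓ) (B : ZMod ℓ)) : ℤ)) • σ • P
      + (ℓ : ℤ) • P = 0 := by
  classical
  have hℓ : ℓ.Prime := Fact.out
  have : IsAlgClosed (IsLocalRing.ResidueField 𝒜) := GAL.INJ.isAlgClosed_residueField 𝒜
  have : CharP (IsLocalRing.ResidueField 𝒜) ℓ := FrobCore_charP 𝒜 hℓ h𝒜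
  let _ : Algebra (ZMod ℓ) (IsLocalRing.ResidueField 𝒜) := ZMod.algebra _ ℓ
  have h2dvd : ¬ (ℓ : ℤ) ∣ 2 := by
    intro h
    have h' : ℓ ∣ 2 := by exact_mod_cast h
    exact hℓ2 ((Nat.prime_dvd_prime_iff_eq hℓ Nat.prime_two).mp h')
  -- the hypotheses of `exists_red`
  have h2 : 𝒜.valuation (2 : Qb) = 1 := by
    have h := Fermat.Agent.Lib.FrobeniusVal.intCast_not_mem_nonunits 𝒜 hℓ h𝒜 h2dvd
    have h' := Fermat.Agent.Lib.FrobeniusVal.valuation_eq_one 𝒜 (intCast_mem 𝒜 2) h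
    simpa using h'
  have hΔ' : IsLocalRing.residue 𝒜 (4 * (A : 𝒜) ^ 3 + 27 * (B : 𝒜) ^ 2) ≠ 0 := by
    have := FrobCore_intCast_unit 𝒜 hℓ h𝒜 hΔ
    push_cast at this
    exact this
  have hWK : ((swQ A B)⁄Qb) = sw (((A : 𝒜) : Qb)) (((B : 𝒜) : Qb)) := by
    rw [swQ_baseChange]
    simp
  set Wl : Affine (ZMod ℓ) := sw (A : ZMod ℓ) (B : ZMod ℓ) with hWl
  have hW : (Wl⁄(IsLocalRing.ResidueField 𝒜)) =
      sw (algebraMap (ZMod ℓ) (IsLocalRing.ResidueField 𝒜) (A : ZMod ℓ))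
        (algebraMap (ZMod ℓ) (IsLocalRing.ResidueField 𝒜) (B : ZMod ℓ)) := by
    ext <;> simp [sw, hWl]
  have hWk : (Wl⁄(IsLocalRing.ResidueField 𝒜)) =
      sw (IsLocalRing.residue 𝒜 (A : 𝒜)) (IsLocalRing.residue 𝒜 (B : 𝒜)) := by
    rw [hW, map_intCast, map_intCast, map_intCast, map_intCast]
  obtain ⟨red, hinj, hred⟩ := exists_red 𝒜 (A : 𝒜) (B : 𝒜) h2 hΔ' _ hWK _ hWk _ hG
  -- the Frobenius endomorphism
  set Fr : (Wl⁄(IsLocalRing.ResidueField 𝒜)).Point →+ (Wl⁄(IsLocalRing.ResidueField 𝒜)).Point :=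
    Point.map (W' := Wl) (FiniteField.frobeniusAlgHom (ZMod ℓ) (IsLocalRing.ResidueField 𝒜))
    with hFrdef
  have hFr : ∀ x y h, ∃ h', Fr (.some x y h) = .some (x ^ ℓ) (y ^ ℓ) h' := by
    intro x y h
    have key : ∀ (m : ℕ) (_ : m = ℓ) (H : _), ∃ h', (Point.some (W' :=
        Wl⁄(IsLocalRing.ResidueField 𝒜)) (x ^ m) (y ^ m) H) = .some (x ^ ℓ) (y ^ ℓ) h' := by
      intro m hm H
      subst hm
      exact ⟨H, rfl⟩
    rw [hFrdef, Point.map_some]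
    exact key (Fintype.card (ZMod ℓ)) (ZMod.card ℓ) _
  have hΔl : 16 * (4 * (A : ZMod ℓ) ^ 3 + 27 * (B : ZMod ℓ) ^ 2) ≠ 0 := by
    have h16 : (16 : ZMod ℓ) ≠ 0 := by
      have e : (16 : ZMod ℓ) = ((2 : ℤ) : ZMod ℓ) ^ 4 := by push_cast; norm_num
      rw [e]
      refine pow_ne_zero 4 ?_
      rw [Ne, ZMod.intCast_zmod_eq_zero_iff_dvd]
      exact h2dvd
    refine mul_ne_zero h16 ?_
    have e : (4 * (A : ZMod ℓ) ^ 3 + 27 * (B : ZMod ℓ) ^ 2) = ((4 * A ^ 3 + 27 * B ^ 2 : ℤ) : ZMod ℓ) := by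
      push_cast; ring
    rw [e, Ne, ZMod.intCast_zmod_eq_zero_iff_dvd]
    exact hΔ
  have hquad := glue_core ℓ hℓ2 (A : ZMod ℓ) (B : ZMod ℓ) hΔl _ hW Fr hFr
  -- `σ` preserves the torsion subgroup
  have hstab : ∀ Q : ((swQ A B)⁄Qb).Point, Q ∈ torsSub ((swQ A B)⁄Qb) n →
      σ • Q ∈ torsSub ((swQ A B)⁄Qb) n := by
    intro Q hQ
    rw [mem_torsSub] at hQ ⊢
    have := Point.algEquiv_smul_zsmul σ (n : ℤ) Q
    rw [natCast_zsmul, natCast_zsmul, hQ, smul_zero] at this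
    exact this.symm
  -- compatibility of `red` with the Frobenius
  have hcomp : ∀ (Q : ((swQ A B)⁄Qb).Point) (hQ : Q ∈ torsSub ((swQ A B)⁄Qb) n),
      red ⟨σ • Q, hstab Q hQ⟩ = Fr (red ⟨Q, hQ⟩) := by
    intro Q hQ
    rcases Q with _ | ⟨x, y, h⟩
    · have e1 : red ⟨0, hQ⟩ = 0 := map_zero red
      have e2 : red ⟨σ • (0 : ((swQ A B)⁄Qb).Point), hstab _ hQ⟩ = 0 := map_zero red
      exact e2.trans (by rw [show red ⟨Point.zero, hQ⟩ = 0 from e1, map_zero])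
    · obtain ⟨hx, hy⟩ := hG.int x y h hQ
      lift x to 𝒜 using hx
      lift y to 𝒜 using hy
      obtain ⟨x', hx', hxr⟩ := FrobCore_residue_map 𝒜 σ hσ x
      obtain ⟨y', hy', hyr⟩ := FrobCore_residue_map 𝒜 σ hσ y
      obtain ⟨h1, e1⟩ := hred x y h hQ
      obtain ⟨h2', e2⟩ := hFr _ _ h1
      rw [e1, e2]
      have hσQ : ∃ h'', σ • (Point.some (x : Qb) (y : Qb) h : ((swQ A B)⁄Qb).Point)
          = Point.some (x' : Qb) (y' : Qb) h'' := by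
        rw [hx', hy']
        exact ⟨_, rfl⟩
      obtain ⟨h'', e3⟩ := hσQ
      have hm : Point.some (x' : Qb) (y' : Qb) h'' ∈ torsSub ((swQ A B)⁄Qb) n := e3 ▸ hstab _ hQ
      obtain ⟨h3, e4⟩ := hred x' y' h'' hm
      have e5 : (⟨σ • (Point.some (x : Qb) (y : Qb) h : ((swQ A B)⁄Qb).Point), hstab _ hQ⟩ :
          torsSub ((swQ A B)⁄Qb) n) = ⟨Point.some (x' : Qb) (y' : Qb) h'', hm⟩ := Subtype.ext e3
      rw [e5, e4, Point.some.injEq]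
      exact ⟨hxr, hyr⟩
  -- conclusion
  have hPm : P ∈ torsSub ((swQ A B)⁄Qb) n := hP
  set c : ℤ := (ℓ : ℤ) + 1 - (Nat.card (Pt (A : ZMod ℓ) (B : ZMod ℓ)) : ℤ) with hc
  have hR : (⟨σ • σ • P, hstab _ (hstab _ hPm)⟩ : torsSub ((swQ A B)⁄Qb) n)
      - c • ⟨σ • P, hstab _ hPm⟩ + (ℓ : ℤ) • ⟨P, hPm⟩ = 0 := by
    apply hinj
    rw [map_add, map_sub, map_zsmul, map_zsmul, map_zero, hcomp _ (hstab _ hPm), hcomp _ hPm]
    exact hquad _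
  exact congrArg Subtype.val hR

end Fermat.Agent.Lib.Ell
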