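import Fermat.Agent.Lib.Ell.FrobCore

/-!
# Lib/Ell, block FS : the Frobenius relation on the torsion of `y² = x³ + A x + B`, `A B : ℤ`
-/

set_option autoImplicit false

namespace Fermat.Agent.Lib.Ell

open WeierstrassCurve WeierstrassCurve.Affine Fermat.Agent.Lib.Hasse

/-- the Frobenius relation for almost all primes. -/
theorem frob_rel_short (A B : ℤ) (hΔ : 4 * A ^ 3 + 27 * B ^ 2 ≠ 0) (n : ℕ) (hn : 0 < n) :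
    ∃ S : Finset ℕ, ∀ (ℓ : ℕ) [Fact ℓ.Prime], ℓ ∉ S →
      ∀ 𝒜 : ValuationSubring Qb, 𝒜.LiesOverPrime ℓ →
      ∀ σ : Qb ≃ₐ[ℚ] Qb, 𝒜.IsFrobeniusAt σ ℓ →
        ∀ P : ((swQ A B)⁄Qb).Point, n • P = 0 →
          σ • σ • P - ((ℓ : ℤ) + 1 - (Nat.card (Pt (A : ZMod ℓ) (B : ZMod ℓ)) : ℤ)) • σ • P
            + (ℓ : ℤ) • P = 0 := by
  obtain ⟨S, hS⟩ := exists_finset_goodPos A B hΔ n hn
  refine ⟨S ∪ {2} ∪ (4 * A ^ 3 + 27 * B ^ 2).natAbs.primeFactors, ?_⟩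
  intro ℓ hℓ hmem 𝒜 h𝒜 σ hσ P hP
  simp only [Finset.mem_union, Finset.mem_singleton, not_or] at hmem
  obtain ⟨⟨h1, h2⟩, h3⟩ := hmem
  refine frob_rel_of_goodPos A B n ℓ h2 ?_ 𝒜 h𝒜 σ hσ (hS ℓ hℓ.out h1 𝒜 h𝒜) P hP
  intro hdvd
  apply h3
  rw [Nat.mem_primeFactors]
  exact ⟨hℓ.out, Int.natCast_dvd.mp hdvd, Int.natAbs_ne_zero.mpr hΔ⟩

end Fermat.Agent.Lib.Ell
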