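import Fermat.Agent.Lib.Ell.FrobShort
import Fermat.Agent.Lib.Ell.VarChangeGal
import Fermat.Agent.S52.Count

/-!
# Lib/Ell : main results (E-GLOB)

For an elliptic curve `E/ℚ` with an integral model `W` (Prelude `IsIntegralModelOf`):
* `card_torsionBy` : `#E(ℚ̄)[n] = n²`;
* `frob_rel` : for almost all primes `ℓ`, every Frobenius `σ` at `ℓ` satisfies
  `σ² - a_ℓ σ + ℓ = 0` on `E(ℚ̄)[n]`, `a_ℓ = W.apOfModel ℓ`.
-/

set_option autoImplicit false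

namespace Fermat.Agent.Lib.Ell

open WeierstrassCurve WeierstrassCurve.Affine Fermat.Agent.Lib.Hasse

/-- LEAF MN-A.  `c₄³ - c₆² = 1728 Δ` (`WeierstrassCurve.c_relation`), so
`4(-27c₄)³ + 27(-54c₆)² = -78732 (c₄³ - c₆²) = -78732 * 1728 * Δ`. -/
theorem short_disc_ne_zero (W : WeierstrassCurve ℤ) (hΔ : W.Δ ≠ 0) :
    4 * (-27 * W.c₄) ^ 3 + 27 * (-54 * W.c₆) ^ 2 ≠ 0 := by
  have h := W.c_relation
  have h2 : 4 * (-27 * W.c₄) ^ 3 + 27 * (-54 * W.c₆) ^ 2 = -78732 * 1728 * W.Δ := by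
    linear_combination (-78732 : ℤ) * (-h)
  rw [h2]
  exact mul_ne_zero (by norm_num) hΔ

/-- LEAF MN-A.  `C • E = W_ℚ` and `variableChange_Δ`, `map_Δ`. -/
theorem model_disc_ne_zero (E : WeierstrassCurve ℚ) (hE : E.Δ ≠ 0) (W : WeierstrassCurve ℤ)
    (hW : W.IsIntegralModelOf E) : W.Δ ≠ 0 := by
  obtain ⟨C, hC⟩ := hW
  intro h0
  have h1 : (C • E).Δ = (W.map (Int.castRingHom ℚ)).Δ := by rw [hC]
  rw [variableChange_Δ, map_Δ, h0, map_zero] at h1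
  rcases mul_eq_zero.1 h1 with h2 | h2
  · exact (pow_ne_zero 12 (Units.ne_zero (C.u⁻¹))) h2
  · exact hE h2

/-- LEAF MN-B.  `exists_short_equiv` transports `{P | n • P = 0}`; `card_torsSub`;
`Submodule.mem_torsionBy_iff`, `natCast_zsmul`. -/
theorem card_torsionBy (E : WeierstrassCurve ℚ) (hE : E.Δ ≠ 0) (W : WeierstrassCurve ℤ)
    (hW : W.IsIntegralModelOf E) (n : ℕ) (hn : 0 < n) :
    Nat.card (Submodule.torsionBy ℤ (E⁄Qb).Point n) = n ^ 2 := by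
  obtain ⟨e, -⟩ := exists_short_equiv (K := Qb) E W hW
  have hΔ := short_disc_ne_zero W (model_disc_ne_zero E hE W hW)
  rw [← card_torsSub (-27 * W.c₄) (-54 * W.c₆) hΔ n hn]
  refine Nat.card_congr (e.toEquiv.subtypeEquiv ?_)
  intro P
  rw [Submodule.mem_torsionBy_iff, mem_torsSub]
  have h1 : ((n : ℕ) : ℤ) • P = n • P := natCast_zsmul P n
  rw [h1]
  constructor
  · intro h
    have : e (n • P) = 0 := by rw [h, map_zero]
    rwa [map_nsmul] at this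
  · intro h
    apply e.injective
    rw [map_nsmul, map_zero]
    exact h

/-- LEAF MN-C.  `S := S₀ ∪ {2, 3} ∪ primeFactors |Δ(W)|` with `S₀` from `frob_rel_short` for
`A = -27 c₄`, `B = -54 c₆`; `S52.apOfModel_eq` (needs `5 ≤ ℓ` and `IsGoodPrimeFor`) identifies the
coefficient (`push_cast`); transport along `e` of `exists_short_equiv` (`e` is additive, injective
and commutes with `σ`: apply `e` to the left-hand side, `map_add`, `map_sub`, `map_zsmul`). -/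
theorem frob_rel (E : WeierstrassCurve ℚ) (hE : E.Δ ≠ 0) (W : WeierstrassCurve ℤ)
    (hW : W.IsIntegralModelOf E) (n : ℕ) (hn : 0 < n) :
    ∃ S : Finset ℕ, ∀ ℓ : ℕ, ℓ.Prime → ℓ ∉ S →
      ∀ 𝒜 : ValuationSubring Qb, 𝒜.LiesOverPrime ℓ →
      ∀ σ : Qb ≃ₐ[ℚ] Qb, 𝒜.IsFrobeniusAt σ ℓ →
        ∀ P : (E⁄Qb).Point, n • P = 0 →
          σ • σ • P - (W.apOfModel ℓ) • σ • P + (ℓ : ℤ) • P = 0 := by
  obtain ⟨e, he⟩ := exists_short_equiv (K := Qb) E W hW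
  have hWΔ := model_disc_ne_zero E hE W hW
  have hΔ := short_disc_ne_zero W hWΔ
  obtain ⟨S₀, hS₀⟩ := frob_rel_short (-27 * W.c₄) (-54 * W.c₆) hΔ n hn
  refine ⟨S₀ ∪ {2, 3} ∪ W.Δ.natAbs.primeFactors, ?_⟩
  intro ℓ hℓ hmem 𝒜 h𝒜 σ hσ P hP
  simp only [Finset.mem_union, Finset.mem_insert, Finset.mem_singleton, not_or] at hmem
  obtain ⟨⟨h0, h2, h3⟩, hbad⟩ := hmem
  haveI : Fact ℓ.Prime := ⟨hℓ⟩
  have h5 : 5 ≤ ℓ := by
    have h2' := hℓ.two_le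
    by_contra hlt
    have h4 : ℓ = 4 := by omega
    rw [h4] at hℓ
    exact absurd hℓ (by norm_num)
  have hg : W.IsGoodPrimeFor ℓ := by
    intro hdvd
    apply hbad
    rw [Nat.mem_primeFactors]
    refine ⟨hℓ, ?_, ?_⟩
    · exact Int.natCast_dvd.1 hdvd
    · exact Int.natAbs_ne_zero.2 hWΔ
  have hap := Fermat.Agent.S52.apOfModel_eq W ℓ h5 hg
  have hePn : n • e P = 0 := by rw [← map_nsmul, hP, map_zero]
  have key := hS₀ ℓ h0 𝒜 h𝒜 σ hσ (e P) hePn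
  have hcoef : ((ℓ : ℤ) + 1 - (Nat.card (Pt (((-27 * W.c₄ : ℤ)) : ZMod ℓ)
      (((-54 * W.c₆ : ℤ)) : ZMod ℓ)) : ℤ)) = W.apOfModel ℓ := by
    rw [hap]
    push_cast
    rfl
  rw [hcoef] at key
  apply e.injective
  rw [map_zero, map_add, map_sub, map_zsmul, map_zsmul, he, he]
  exact key

end Fermat.Agent.Lib.Ell
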