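import Mathlib
import Fermat.Agent.Lib.Hasse.Defs

/-!
# Lib/Ell, block RD : reduction of a subgroup "in good position" is an injective homomorphism

No general reduction homomorphism `E(K) → Ẽ(k)` is needed: on a subgroup `H` all of whose
nonzero points are integral, with `x`-coordinates pairwise distinct modulo the maximal ideal and
`y`-coordinates zero or units, all the slopes occurring in the group law are integral, so the
formulas of Mathlib's group law simply reduce.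
-/

set_option autoImplicit false

namespace Fermat.Agent.Lib.Ell

open WeierstrassCurve WeierstrassCurve.Affine Fermat.Agent.Lib.Hasse

variable {K : Type*} [Field K] [DecidableEq K]

section redAux

variable (𝒜 : ValuationSubring K) (a b : 𝒜)

theorem Red_residue_two_ne_zero (h2 : 𝒜.valuation (2 : K) = 1) :
    IsLocalRing.residue 𝒜 (2 : 𝒜) ≠ 0 := by
  rw [IsLocalRing.residue_ne_zero_iff_isUnit, ValuationSubring.valuation_eq_one_iff]
  exact h2

theorem Red_nonsingular (h2 : 𝒜.valuation (2 : K) = 1)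
    (hΔ : IsLocalRing.residue 𝒜 (4 * a ^ 3 + 27 * b ^ 2) ≠ 0) (x y : 𝒜)
    (h : (sw (a : K) (b : K)).Equation (x : K) (y : K)) :
    (sw (IsLocalRing.residue 𝒜 a) (IsLocalRing.residue 𝒜 b)).Nonsingular
      (IsLocalRing.residue 𝒜 x) (IsLocalRing.residue 𝒜 y) := by
  have hΔ' : (sw (IsLocalRing.residue 𝒜 a) (IsLocalRing.residue 𝒜 b)).Δ ≠ 0 := by
    have e : (sw (IsLocalRing.residue 𝒜 a) (IsLocalRing.residue 𝒜 b)).Δ =
        -(IsLocalRing.residue 𝒜 (2 : 𝒜)) ^ 4 * IsLocalRing.residue 𝒜 (4 * a ^ 3 + 27 * b ^ 2) := by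
      simp only [sw, WeierstrassCurve.Δ, WeierstrassCurve.b₂, WeierstrassCurve.b₄,
        WeierstrassCurve.b₆, WeierstrassCurve.b₈, map_add, map_mul, map_pow, map_ofNat]
      ring
    rw [e]
    exact mul_ne_zero (neg_ne_zero.2 (pow_ne_zero _ (Red_residue_two_ne_zero 𝒜 h2))) hΔ
  rw [← equation_iff_nonsingular_of_Δ_ne_zero hΔ', equation_iff]
  rw [equation_iff] at h
  have h' : y ^ 2 = x ^ 3 + a * x + b := by
    apply Subtype.ext
    simp only [sw] at h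
    push_cast
    linear_combination h
  have h'' := congrArg (IsLocalRing.residue 𝒜) h'
  simp only [map_add, map_mul, map_pow] at h''
  simp only [sw]
  linear_combination h''

open Classical in
/-- the reduction map (junk value `0` at the non integral points). -/
noncomputable def redFun (h2 : 𝒜.valuation (2 : K) = 1)
    (hΔ : IsLocalRing.residue 𝒜 (4 * a ^ 3 + 27 * b ^ 2) ≠ 0) :
    (sw (a : K) (b : K)).Point → (sw (IsLocalRing.residue 𝒜 a) (IsLocalRing.residue 𝒜 b)).Point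
  | .zero => .zero
  | .some x y h =>
    if hxy : x ∈ 𝒜 ∧ y ∈ 𝒜 then
      .some (IsLocalRing.residue 𝒜 ⟨x, hxy.1⟩) (IsLocalRing.residue 𝒜 ⟨y, hxy.2⟩)
        (Red_nonsingular 𝒜 a b h2 hΔ ⟨x, hxy.1⟩ ⟨y, hxy.2⟩ h.1)
    else .zero

variable (h2 : 𝒜.valuation (2 : K) = 1)
  (hΔ : IsLocalRing.residue 𝒜 (4 * a ^ 3 + 27 * b ^ 2) ≠ 0)

theorem redFun_some (x y : 𝒜) (h : (sw (a : K) (b : K)).Nonsingular (x : K) (y : K)) :
    redFun 𝒜 a b h2 hΔ (.some (x : K) (y : K) h) =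
      .some (IsLocalRing.residue 𝒜 x) (IsLocalRing.residue 𝒜 y)
        (Red_nonsingular 𝒜 a b h2 hΔ x y h.1) := by
  rw [redFun, dif_pos ⟨x.2, y.2⟩]

theorem redFun_eq {X Y : K} (h : (sw (a : K) (b : K)).Nonsingular X Y) (x y : 𝒜) (hx : X = x)
    (hy : Y = y) : ∃ h', redFun 𝒜 a b h2 hΔ (.some X Y h) =
      .some (IsLocalRing.residue 𝒜 x) (IsLocalRing.residue 𝒜 y) h' := by
  subst hx hy
  exact ⟨_, redFun_some 𝒜 a b h2 hΔ x y h⟩

theorem Red_div_eq {F : Type*} [Field F] {n d v : F} (h : d * v = 1) : n / d = n * v := by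
  have hd : d ≠ 0 := left_ne_zero_of_mul_eq_one h
  rw [div_eq_iff hd, mul_assoc, mul_comm v d, h, mul_one]

variable [DecidableEq (IsLocalRing.ResidueField 𝒜)]

theorem Red_add_aux (x₁ y₁ x₂ y₂ L : 𝒜)
    (h₁ : (sw (a : K) (b : K)).Nonsingular (x₁ : K) (y₁ : K))
    (h₂ : (sw (a : K) (b : K)).Nonsingular (x₂ : K) (y₂ : K))
    (hxy : ¬((x₁ : K) = x₂ ∧ (y₁ : K) = (sw (a : K) (b : K)).negY x₂ y₂))
    (hxy' : ¬(IsLocalRing.residue 𝒜 x₁ = IsLocalRing.residue 𝒜 x₂ ∧ IsLocalRing.residue 𝒜 y₁ =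
      (sw (IsLocalRing.residue 𝒜 a) (IsLocalRing.residue 𝒜 b)).negY (IsLocalRing.residue 𝒜 x₂)
        (IsLocalRing.residue 𝒜 y₂)))
    (hL : (sw (a : K) (b : K)).slope (x₁ : K) x₂ y₁ y₂ = L)
    (hL' : (sw (IsLocalRing.residue 𝒜 a) (IsLocalRing.residue 𝒜 b)).slope
      (IsLocalRing.residue 𝒜 x₁) (IsLocalRing.residue 𝒜 x₂) (IsLocalRing.residue 𝒜 y₁)
      (IsLocalRing.residue 𝒜 y₂) = IsLocalRing.residue 𝒜 L) :
    redFun 𝒜 a b h2 hΔ (.some _ _ h₁ + .some _ _ h₂) =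
      redFun 𝒜 a b h2 hΔ (.some _ _ h₁) + redFun 𝒜 a b h2 hΔ (.some _ _ h₂) := by
  rw [Point.add_some hxy, redFun_some, redFun_some, Point.add_some hxy']
  obtain ⟨h', e⟩ := redFun_eq 𝒜 a b h2 hΔ (nonsingular_add h₁ h₂ hxy) (L ^ 2 - x₁ - x₂)
    (-(L * ((L ^ 2 - x₁ - x₂) - x₁) + y₁))
    (by rw [hL]; simp [addX, sw]) (by rw [hL]; simp [addY, negAddY, negY, addX, sw])
  rw [e]
  simp only [Point.some.injEq]
  constructor
  · rw [hL']; simp [addX, sw]
  · rw [hL']; simp [addY, negAddY, negY, addX, sw]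

end redAux

/-- `H` is in good position with respect to the valuation ring `𝒜`. -/
structure GoodPos (𝒜 : ValuationSubring K) (WK : Affine K) (H : AddSubgroup WK.Point) : Prop where
  int : ∀ (x y : K) (h : WK.Nonsingular x y), Point.some x y h ∈ H → x ∈ 𝒜 ∧ y ∈ 𝒜
  sep : ∀ (x₁ y₁ : K) (h₁ : WK.Nonsingular x₁ y₁) (x₂ y₂ : K) (h₂ : WK.Nonsingular x₂ y₂),
    Point.some x₁ y₁ h₁ ∈ H → Point.some x₂ y₂ h₂ ∈ H → x₁ ≠ x₂ → 𝒜.valuation (x₁ - x₂) = 1
  yunit : ∀ (x y : K) (h : WK.Nonsingular x y), Point.some x y h ∈ H → y ≠ 0 →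
    𝒜.valuation y = 1

theorem Red_add (𝒜 : ValuationSubring K) [DecidableEq (IsLocalRing.ResidueField 𝒜)]
    (a b : 𝒜) (h2 : 𝒜.valuation (2 : K) = 1)
    (hΔ : IsLocalRing.residue 𝒜 (4 * a ^ 3 + 27 * b ^ 2) ≠ 0)
    (H : AddSubgroup (sw (a : K) (b : K)).Point) (hH : GoodPos 𝒜 (sw (a : K) (b : K)) H)
    (P Q : (sw (a : K) (b : K)).Point) (hP : P ∈ H) (hQ : Q ∈ H) :
    redFun 𝒜 a b h2 hΔ (P + Q) = redFun 𝒜 a b h2 hΔ P + redFun 𝒜 a b h2 hΔ Q := by
  rcases P with _ | ⟨x₁, y₁, h₁⟩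
  · change redFun 𝒜 a b h2 hΔ (0 + Q) = 0 + redFun 𝒜 a b h2 hΔ Q
    rw [zero_add, zero_add]
  rcases Q with _ | ⟨x₂, y₂, h₂⟩
  · change redFun 𝒜 a b h2 hΔ (_ + 0) = redFun 𝒜 a b h2 hΔ _ + 0
    rw [add_zero, add_zero]
  obtain ⟨hx₁, hy₁⟩ := hH.int _ _ h₁ hP
  obtain ⟨hx₂, hy₂⟩ := hH.int _ _ h₂ hQ
  lift x₁ to 𝒜 using hx₁
  lift y₁ to 𝒜 using hy₁
  lift x₂ to 𝒜 using hx₂
  lift y₂ to 𝒜 using hy₂
  by_cases hx : (x₁ : K) = x₂
  · by_cases hy : (y₁ : K) = (sw (a : K) (b : K)).negY x₂ y₂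
    · -- the sum is zero
      rw [Point.add_of_Y_eq hx hy, redFun_some, redFun_some, Point.add_of_Y_eq]
      · rfl
      · rw [Subtype.ext hx]
      · have e : y₁ = -y₂ := by
          apply Subtype.ext
          rw [hy]
          simp [negY, sw]
        rw [e]
        simp [negY, sw]
    · -- doubling
      have hyy : (y₁ : K) = y₂ := Y_eq_of_Y_ne h₁.1 h₂.1 hx hy
      have hx' : x₁ = x₂ := Subtype.ext hx
      have hy' : y₁ = y₂ := Subtype.ext hyy
      subst hx' hy'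
      have hy0 : (y₁ : K) ≠ 0 := by
        intro h0
        apply hy
        simp [negY, sw, h0]
      have c2 : ((2 : 𝒜) : K) = 2 := map_ofNat 𝒜.subtype 2
      have c3 : ((3 : 𝒜) : K) = 3 := map_ofNat 𝒜.subtype 3
      have hv : 𝒜.valuation ((2 * y₁ : 𝒜) : K) = 1 := by
        push_cast
        rw [map_mul, c2, h2, hH.yunit _ _ h₁ hP hy0, one_mul]
      obtain ⟨v, hv⟩ := ((ValuationSubring.valuation_eq_one_iff 𝒜 _).2 hv).exists_right_inv
      have hvK : (2 * (y₁ : K)) * (v : K) = 1 := by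
        have := congrArg Subtype.val hv
        push_cast at this
        rwa [c2] at this
      have hvk := congrArg (IsLocalRing.residue 𝒜) hv
      rw [map_mul, map_mul, map_one, map_ofNat] at hvk
      have hyk : ¬ IsLocalRing.residue 𝒜 y₁ =
          (sw (IsLocalRing.residue 𝒜 a) (IsLocalRing.residue 𝒜 b)).negY
            (IsLocalRing.residue 𝒜 x₁) (IsLocalRing.residue 𝒜 y₁) := by
        intro h0
        have h1 : 2 * IsLocalRing.residue 𝒜 y₁ = 0 := by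
          simp only [negY, sw] at h0
          linear_combination h0
        rw [h1, zero_mul] at hvk
        exact zero_ne_one hvk
      refine Red_add_aux 𝒜 a b h2 hΔ x₁ y₁ x₁ y₁ ((3 * x₁ ^ 2 + a) * v) h₁ h₂
        (fun h => hy h.2) (fun h => hyk h.2) ?_ ?_
      · rw [slope_of_Y_ne rfl hy]
        have e : (y₁ : K) - (sw (a : K) (b : K)).negY x₁ y₁ = 2 * (y₁ : K) := by
          simp only [negY, sw]; ring
        rw [e, Red_div_eq hvK]
        simp [sw, c3]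
      · rw [slope_of_Y_ne rfl hyk]
        have e : IsLocalRing.residue 𝒜 y₁ -
            (sw (IsLocalRing.residue 𝒜 a) (IsLocalRing.residue 𝒜 b)).negY
              (IsLocalRing.residue 𝒜 x₁) (IsLocalRing.residue 𝒜 y₁) =
            2 * IsLocalRing.residue 𝒜 y₁ := by
          simp only [negY, sw]; ring
        rw [e, Red_div_eq hvk]
        simp [sw, map_ofNat]
  · -- distinct `x`-coordinates
    have hv : 𝒜.valuation ((x₁ - x₂ : 𝒜) : K) = 1 := by
      push_cast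
      exact hH.sep _ _ h₁ _ _ h₂ hP hQ hx
    obtain ⟨v, hv⟩ := ((ValuationSubring.valuation_eq_one_iff 𝒜 _).2 hv).exists_right_inv
    have hvK : ((x₁ : K) - x₂) * (v : K) = 1 := by exact_mod_cast congrArg Subtype.val hv
    have hvk := congrArg (IsLocalRing.residue 𝒜) hv
    rw [map_mul, map_sub, map_one] at hvk
    have hxk : IsLocalRing.residue 𝒜 x₁ ≠ IsLocalRing.residue 𝒜 x₂ := by
      intro h0
      rw [h0, sub_self, zero_mul] at hvk
      exact zero_ne_one hvk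
    refine Red_add_aux 𝒜 a b h2 hΔ x₁ y₁ x₂ y₂ ((y₁ - y₂) * v) h₁ h₂
      (fun h => hx h.1) (fun h => hxk h.1) ?_ ?_
    · rw [slope_of_X_ne hx, Red_div_eq hvK]
      simp
    · rw [slope_of_X_ne hxk, Red_div_eq hvk]
      simp

/-- LEAF RD.  (~300 lines.)  `subst hWK hWk`.  Define `red` on `H` by cases
(`0 ↦ 0`, `some x y ↦ some (residue x) (residue y)`; nonsingular because the reduced equation holds
(apply the ring hom `residue` to the equation in `𝒜`) and the reduced discriminant is nonzero: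
`equation_iff_nonsingular_of_Δ_ne_zero`, `Δ (sw a b) = -16 (4a³+27b²)`).
Additivity, `P = (x₁,y₁)`, `Q = (x₂,y₂)` nonzero in `H`:
* `x₁ ≠ x₂`: `x₁ - x₂` is a unit of `𝒜` by `sep`, so `L = (y₁-y₂)/(x₁-x₂) ∈ 𝒜`, the residues of
  `x₁, x₂` are distinct, `Point.add_of_X_ne`, `slope_of_X_ne` on both sides, and
  `residue L = (ȳ₁-ȳ₂)/(x̄₁-x̄₂)`; `addX`, `addY` are polynomials in `x₁,x₂,y₁,L`.
* `x₁ = x₂`, `y₁ = -y₂` (`negY` of `sw` is `-y`): both sums are `0` (`Point.add_of_Y_eq`).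
* `x₁ = x₂`, `y₁ ≠ -y₂`: then `y₁ = y₂ ≠ 0` (`Y_eq_of_Y_ne`), `y₁` is a unit by `yunit`, `2` is a
  unit, `L = (3x₁²+a)/(2y₁) ∈ 𝒜`, `ȳ₁ ≠ -ȳ₁`, `slope_of_Y_ne` on both sides.
Injectivity: kernel trivial by definition (a nonzero point goes to an affine point). -/
theorem exists_red (𝒜 : ValuationSubring K) [DecidableEq (IsLocalRing.ResidueField 𝒜)]
    (a b : 𝒜) (h2 : 𝒜.valuation (2 : K) = 1)
    (hΔ : IsLocalRing.residue 𝒜 (4 * a ^ 3 + 27 * b ^ 2) ≠ 0)
    (WK : Affine K) (hWK : WK = sw (a : K) (b : K))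
    (Wk : Affine (IsLocalRing.ResidueField 𝒜))
    (hWk : Wk = sw (IsLocalRing.residue 𝒜 a) (IsLocalRing.residue 𝒜 b))
    (H : AddSubgroup WK.Point) (hH : GoodPos 𝒜 WK H) :
    ∃ red : H →+ Wk.Point, Function.Injective red ∧
      ∀ (x y : 𝒜) (h : WK.Nonsingular (x : K) (y : K)) (hm : Point.some (x : K) (y : K) h ∈ H),
        ∃ h', red ⟨_, hm⟩ =
          Point.some (IsLocalRing.residue 𝒜 x) (IsLocalRing.residue 𝒜 y) h' := by
  subst hWK hWk
  refine ⟨AddMonoidHom.mk' (fun P => redFun 𝒜 a b h2 hΔ P.1)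
    (fun P Q => Red_add 𝒜 a b h2 hΔ H hH P.1 Q.1 P.2 Q.2), ?_, ?_⟩
  · rw [injective_iff_map_eq_zero]
    rintro ⟨P, hP⟩ h0
    change redFun 𝒜 a b h2 hΔ P = 0 at h0
    rcases P with _ | ⟨x, y, h⟩
    · rfl
    · exfalso
      obtain ⟨hx, hy⟩ := hH.int _ _ h hP
      lift x to 𝒜 using hx
      lift y to 𝒜 using hy
      rw [redFun_some] at h0
      exact Point.some_ne_zero _ h0
  · intro x y h hm
    exact ⟨_, redFun_some 𝒜 a b h2 hΔ x y h⟩

end Fermat.Agent.Lib.Ell
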