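import Mathlib
import Fermat.Prelude.Def_FLTPrelim_Ramification
import Fermat.Agent.Lib.FrobeniusVal

/-!
# Lib/Ell, block UN : a nonzero algebraic number is a unit at almost all primes
-/

set_option autoImplicit false

namespace Fermat.Agent.Lib.Ell

theorem Units_isAlgebraic_aux (inst : Algebra ℚ (AlgebraicClosure ℚ)) :
    @Algebra.IsAlgebraic ℚ (AlgebraicClosure ℚ) _ _ inst := by
  have h : inst = AlgebraicClosure.instAlgebra ℚ := Subsingleton.elim _ _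
  rw [h]
  infer_instance

/-- an algebraic number is integral at almost all primes. -/
theorem Units_exists_le_one (a : AlgebraicClosure ℚ) :
    ∃ c : ℤ, c ≠ 0 ∧ ∀ ℓ : ℕ, ℓ.Prime → ¬ (ℓ : ℤ) ∣ c →
      ∀ A : ValuationSubring (AlgebraicClosure ℚ), A.LiesOverPrime ℓ → A.valuation a ≤ 1 := by
  have halg : IsAlgebraic ℤ a := by
    have : Algebra.IsAlgebraic ℚ (AlgebraicClosure ℚ) := Units_isAlgebraic_aux inferInstance
    have h1 : IsAlgebraic ℚ a := Algebra.IsAlgebraic.isAlgebraic a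
    exact (IsFractionRing.isAlgebraic_iff ℤ ℚ (AlgebraicClosure ℚ)).mpr h1
  obtain ⟨c, hc, hint⟩ := halg.exists_integral_multiple
  refine ⟨c, hc, fun ℓ hℓ hdvd A hA => ?_⟩
  have h1 : (c : AlgebraicClosure ℚ) ∈ A := intCast_mem A c
  have h2 : A.valuation (c : AlgebraicClosure ℚ) = 1 :=
    FrobeniusVal.valuation_eq_one A h1 (FrobeniusVal.intCast_not_mem_nonunits A hℓ hA hdvd)
  have h3 : c • a ∈ A := FrobeniusVal.integral_mem A hint
  rw [← ValuationSubring.valuation_le_one_iff, zsmul_eq_mul, map_mul, h2, one_mul] at h3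
  exact h3

/-- LEAF UN.  `a` is a root of a nonzero `f : ℤ[X]`; dividing by a power of `X` we may assume
`f.coeff 0 ≠ 0`.  `S` := the prime factors of `|leadingCoeff f * coeff f 0|`.  If `ℓ ∉ S` the
leading coefficient `c` is a unit of `A` (`Fermat.Agent.Lib.FrobeniusVal.intCast_not_mem_nonunits`
may be imported/copied), `c a` is integral over `ℤ` (`isIntegral_leadingCoeff_smul`), hence in `A`
(integrally closed), so `a ∈ A`; the same for `a⁻¹` with the reversed polynomial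
(`Polynomial.reverse`, `eval₂_reverse_eq_zero_iff`). -/
theorem exists_finset_unit_one (a : AlgebraicClosure ℚ) (ha : a ≠ 0) :
    ∃ S : Finset ℕ, ∀ ℓ : ℕ, ℓ.Prime → ℓ ∉ S →
      ∀ A : ValuationSubring (AlgebraicClosure ℚ), A.LiesOverPrime ℓ → A.valuation a = 1 := by
  obtain ⟨c₁, hc₁, h₁⟩ := Units_exists_le_one a
  obtain ⟨c₂, hc₂, h₂⟩ := Units_exists_le_one a⁻¹
  refine ⟨(c₁.natAbs * c₂.natAbs).primeFactors, fun ℓ hℓ hS A hA => ?_⟩
  have hne : c₁.natAbs * c₂.natAbs ≠ 0 :=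
    mul_ne_zero (Int.natAbs_ne_zero.2 hc₁) (Int.natAbs_ne_zero.2 hc₂)
  have hnd : ¬ ℓ ∣ c₁.natAbs * c₂.natAbs := fun h => hS (Nat.mem_primeFactors.2 ⟨hℓ, h, hne⟩)
  have hd₁ : ¬ (ℓ : ℤ) ∣ c₁ := fun h =>
    hnd (Dvd.dvd.mul_right (Int.natCast_dvd.1 h) _)
  have hd₂ : ¬ (ℓ : ℤ) ∣ c₂ := fun h =>
    hnd (Dvd.dvd.mul_left (Int.natCast_dvd.1 h) _)
  have hle := h₁ ℓ hℓ hd₁ A hA
  have hge := h₂ ℓ hℓ hd₂ A hA
  rw [map_inv₀] at hge
  have hv0 : 0 < A.valuation a := zero_lt_iff.2 ((Valuation.ne_zero_iff _).2 ha)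
  exact le_antisymm hle ((inv_le_one₀ hv0).1 hge)

/-- union over a finite set. -/
theorem exists_finset_unit (T : Set (AlgebraicClosure ℚ)) (hT : T.Finite) (h0 : ∀ a ∈ T, a ≠ 0) :
    ∃ S : Finset ℕ, ∀ ℓ : ℕ, ℓ.Prime → ℓ ∉ S →
      ∀ A : ValuationSubring (AlgebraicClosure ℚ), A.LiesOverPrime ℓ →
        ∀ a ∈ T, A.valuation a = 1 := by
  classical
  induction T, hT using Set.Finite.induction_on with
  | empty => exact ⟨∅, fun _ _ _ _ _ a ha => absurd ha (Set.notMem_empty a)⟩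
  | @insert a T _ _ ih =>
    obtain ⟨S₁, h₁⟩ := ih fun b hb => h0 b (Set.mem_insert_of_mem _ hb)
    obtain ⟨S₂, h₂⟩ := exists_finset_unit_one a (h0 a (Set.mem_insert _ _))
    refine ⟨S₁ ∪ S₂, fun ℓ hℓ hS A hA b hb => ?_⟩
    rw [Finset.mem_union, not_or] at hS
    rcases hb with rfl | hb
    · exact h₂ ℓ hℓ hS.2 A hA
    · exact h₁ ℓ hℓ hS.1 A hA b hb

end Fermat.Agent.Lib.Ell
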