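import Fermat.Agent.Lib.Ell.Red
import Fermat.Agent.Lib.Ell.Card
import Fermat.Agent.Lib.Ell.Units
import Fermat.Prelude.Def_EllipticCurve_FrobeniusTrace

/-!
# Lib/Ell, blocks FS-A, FS-B : the torsion subgroup of `y² = x³ + A x + B`, `A B : ℤ`, is finite and
in good position at almost all primes
-/

set_option autoImplicit false

namespace Fermat.Agent.Lib.Ell

open WeierstrassCurve WeierstrassCurve.Affine Fermat.Agent.Lib.Hasse

/-- `ℚ̄`. -/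
abbrev Qb : Type := AlgebraicClosure ℚ

/-- the short curve over `ℚ` with integer coefficients. -/
abbrev swQ (A B : ℤ) : WeierstrassCurve ℚ := sw (A : ℚ) (B : ℚ)

/-- the `n`-torsion subgroup. -/
def torsSub {K : Type*} [Field K] [DecidableEq K] (W : Affine K) (n : ℕ) : AddSubgroup W.Point :=
  (nsmulAddMonoidHom n : W.Point →+ W.Point).ker

theorem mem_torsSub {K : Type*} [Field K] [DecidableEq K] {W : Affine K} {n : ℕ} {P : W.Point} :
    P ∈ torsSub W n ↔ n • P = 0 := Iff.rfl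

theorem swQ_baseChange (A B : ℤ) : ((swQ A B)⁄Qb) = sw ((A : Qb)) ((B : Qb)) := by
  ext <;> simp [sw, WeierstrassCurve.baseChange]

theorem TorsSub_aux (A B : ℤ) (hΔ : 4 * A ^ 3 + 27 * B ^ 2 ≠ 0) (n : ℕ) (hn : 0 < n)
    (W : Affine Qb) (hW : W = sw ((A : Qb)) ((B : Qb))) :
    Finite (torsSub W n) ∧ Nat.card (torsSub W n) = n ^ 2 := by
  subst hW
  have hΔ' : (16 : Qb) * (4 * (A : Qb) ^ 3 + 27 * (B : Qb) ^ 2) ≠ 0 := by
    have h : ((16 * (4 * A ^ 3 + 27 * B ^ 2) : ℤ) : Qb) ≠ 0 :=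
      Int.cast_ne_zero.2 (mul_ne_zero (by norm_num) hΔ)
    push_cast at h
    exact h
  exact ⟨finite_torsion hΔ' n hn, card_torsion hΔ' n hn⟩

/-- the `x`-coordinate (junk value `0` at the origin). -/
def TorsSub_xc {K : Type*} [Field K] {W : Affine K} : W.Point → K
  | .zero => 0
  | .some x _ _ => x

/-- the `y`-coordinate (junk value `0` at the origin). -/
def TorsSub_yc {K : Type*} [Field K] {W : Affine K} : W.Point → K
  | .zero => 0
  | .some _ y _ => y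

theorem TorsSub_goodPos (W : Affine Qb) (H : AddSubgroup W.Point) (hH : Finite H) :
    ∃ S : Finset ℕ, ∀ ℓ : ℕ, ℓ.Prime → ℓ ∉ S → ∀ 𝒜 : ValuationSubring Qb, 𝒜.LiesOverPrime ℓ →
      GoodPos 𝒜 W H := by
  have hfin : (H : Set W.Point).Finite := Set.toFinite _
  obtain ⟨S, hS⟩ := exists_finset_unit
    (((TorsSub_xc '' (H : Set W.Point)) ∪ (TorsSub_yc '' (H : Set W.Point)) ∪
      (Set.image2 (fun P Q => TorsSub_xc P - TorsSub_xc Q) (H : Set W.Point) (H : Set W.Point)))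
        \ {0})
    ((((hfin.image _).union (hfin.image _)).union (Set.Finite.image2 _ hfin hfin)).subset
      Set.sdiff_subset)
    (fun a ha => ha.2)
  refine ⟨S, fun ℓ hℓ hℓS 𝒜 h𝒜 => ?_⟩
  have key := hS ℓ hℓ hℓS 𝒜 h𝒜
  have hmem : ∀ a : Qb, (a ≠ 0 → 𝒜.valuation a = 1) → a ∈ 𝒜 := by
    intro a ha
    by_cases h0 : a = 0
    · rw [h0]; exact 𝒜.zero_mem
    · exact (𝒜.valuation_le_one_iff a).1 (ha h0).le
  have hx : ∀ (x y : Qb) (h : W.Nonsingular x y), Point.some x y h ∈ H → x ≠ 0 →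
      𝒜.valuation x = 1 := fun x y h hm h0 =>
    key x ⟨Or.inl (Or.inl ⟨_, hm, rfl⟩), h0⟩
  have hy : ∀ (x y : Qb) (h : W.Nonsingular x y), Point.some x y h ∈ H → y ≠ 0 →
      𝒜.valuation y = 1 := fun x y h hm h0 =>
    key y ⟨Or.inl (Or.inr ⟨_, hm, rfl⟩), h0⟩
  refine ⟨fun x y h hm => ⟨hmem x (hx x y h hm), hmem y (hy x y h hm)⟩, ?_, hy⟩
  intro x₁ y₁ h₁ x₂ y₂ h₂ hm₁ hm₂ hne
  exact key (x₁ - x₂) ⟨Or.inr ⟨_, hm₁, _, hm₂, rfl⟩, sub_ne_zero.2 hne⟩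

/-- LEAF FS-A.  `rw`/`subst` along `swQ_baseChange` (generalise the curve first:
`∀ W, W = sw _ _ → Finite ...`), then `finite_torsion`. -/
theorem finite_torsSub (A B : ℤ) (hΔ : 4 * A ^ 3 + 27 * B ^ 2 ≠ 0) (n : ℕ) (hn : 0 < n) :
    Finite (torsSub ((swQ A B)⁄Qb) n) :=
  (TorsSub_aux A B hΔ n hn _ (swQ_baseChange A B)).1

/-- LEAF FS-A.  same transport, `card_torsion`. -/
theorem card_torsSub (A B : ℤ) (hΔ : 4 * A ^ 3 + 27 * B ^ 2 ≠ 0) (n : ℕ) (hn : 0 < n) :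
    Nat.card (torsSub ((swQ A B)⁄Qb) n) = n ^ 2 :=
  (TorsSub_aux A B hΔ n hn _ (swQ_baseChange A B)).2

/-- LEAF FS-B.  `T` := the (finite) set of all nonzero numbers among `x(P)`, `y(P)`,
`x(P) - x(Q)` for `P, Q` in the (finite) torsion subgroup; `exists_finset_unit`.  (An element of
valuation `1`, or `0`, lies in `𝒜`.) -/
theorem exists_finset_goodPos (A B : ℤ) (hΔ : 4 * A ^ 3 + 27 * B ^ 2 ≠ 0) (n : ℕ) (hn : 0 < n) :
    ∃ S : Finset ℕ, ∀ ℓ : ℕ, ℓ.Prime → ℓ ∉ S → ∀ 𝒜 : ValuationSubring Qb, 𝒜.LiesOverPrime ℓ →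
      GoodPos 𝒜 ((swQ A B)⁄Qb) (torsSub ((swQ A B)⁄Qb) n) :=
  TorsSub_goodPos _ _ (finite_torsSub A B hΔ n hn)

end Fermat.Agent.Lib.Ell
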