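import Mathlib

/-!
# Lib/Ell, block VC : an admissible change of variables induces an isomorphism of point groups

Mathlib has `WeierstrassCurve.VariableChange` acting on Weierstrass curves, but no map on
`WeierstrassCurve.Affine.Point`.  A point `(X, Y)` of `C • W` is sent to the point
`(u² X + r, u³ Y + u² s X + t)` of `W`.
-/

set_option autoImplicit false

namespace Fermat.Agent.Lib.Ell

open WeierstrassCurve WeierstrassCurve.Affine

variable {F : Type*} [Field F]

/-- the `x`-coordinate of the image point. -/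
def vcX (C : VariableChange F) (x : F) : F := (C.u : F) ^ 2 * x + C.r

/-- the `y`-coordinate of the image point. -/
def vcY (C : VariableChange F) (x y : F) : F := (C.u : F) ^ 3 * y + (C.u : F) ^ 2 * C.s * x + C.t

/-- the coefficients of `C • W`, without denominators. -/
theorem VarChange_coeffs (W : WeierstrassCurve F) (C : VariableChange F) :
    (C.u : F) * (C • W).a₁ = W.a₁ + 2 * C.s ∧
    (C.u : F) ^ 2 * (C • W).a₂ = W.a₂ - C.s * W.a₁ + 3 * C.r - C.s ^ 2 ∧
    (C.u : F) ^ 3 * (C • W).a₃ = W.a₃ + C.r * W.a₁ + 2 * C.t ∧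
    (C.u : F) ^ 4 * (C • W).a₄ = W.a₄ - C.s * W.a₃ + 2 * C.r * W.a₂ - (C.t + C.r * C.s) * W.a₁
      + 3 * C.r ^ 2 - 2 * C.s * C.t ∧
    (C.u : F) ^ 6 * (C • W).a₆ = W.a₆ + C.r * W.a₄ + C.r ^ 2 * W.a₂ + C.r ^ 3 - C.t * W.a₃
      - C.t ^ 2 - C.r * C.t * W.a₁ := by
  have hu : (C.u : F) ≠ 0 := C.u.ne_zero
  rw [variableChange_a₁, variableChange_a₂, variableChange_a₃, variableChange_a₄,
    variableChange_a₆, Units.val_inv_eq_inv_val]
  refine ⟨?_, ?_, ?_, ?_, ?_⟩ <;> field_simp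

theorem VarChange_poly (W : WeierstrassCurve F) (C : VariableChange F) (x y : F) :
    vcY C x y ^ 2 + W.a₁ * vcX C x * vcY C x y + W.a₃ * vcY C x y
      - (vcX C x ^ 3 + W.a₂ * vcX C x ^ 2 + W.a₄ * vcX C x + W.a₆) =
    (C.u : F) ^ 6 * (y ^ 2 + (C • W).a₁ * x * y + (C • W).a₃ * y
      - (x ^ 3 + (C • W).a₂ * x ^ 2 + (C • W).a₄ * x + (C • W).a₆)) := by
  obtain ⟨h1, h2, h3, h4, h6⟩ := VarChange_coeffs W C
  unfold vcX vcY
  linear_combination -((C.u : F) ^ 5 * x * y) * h1 - ((C.u : F) ^ 3 * y) * h3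
    + ((C.u : F) ^ 4 * x ^ 2) * h2 + ((C.u : F) ^ 2 * x) * h4 + h6

theorem VarChange_polyY (W : WeierstrassCurve F) (C : VariableChange F) (x y : F) :
    2 * vcY C x y + W.a₁ * vcX C x + W.a₃ =
    (C.u : F) ^ 3 * (2 * y + (C • W).a₁ * x + (C • W).a₃) := by
  obtain ⟨h1, h2, h3, h4, h6⟩ := VarChange_coeffs W C
  unfold vcX vcY
  linear_combination -((C.u : F) ^ 2 * x) * h1 - h3

theorem VarChange_polyX (W : WeierstrassCurve F) (C : VariableChange F) (x y : F) :
    W.a₁ * vcY C x y - (3 * vcX C x ^ 2 + 2 * W.a₂ * vcX C x + W.a₄) =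
    (C.u : F) ^ 4 * ((C • W).a₁ * y - (3 * x ^ 2 + 2 * (C • W).a₂ * x + (C • W).a₄))
      - C.s * ((C.u : F) ^ 3 * (2 * y + (C • W).a₁ * x + (C • W).a₃)) := by
  obtain ⟨h1, h2, h3, h4, h6⟩ := VarChange_coeffs W C
  unfold vcX vcY
  linear_combination -((C.u : F) ^ 3 * y) * h1 + (2 * (C.u : F) ^ 2 * x) * h2 + h4
    + C.s * ((C.u : F) ^ 2 * x) * h1 + C.s * h3

/-- LEAF VC-A. -/
theorem vc_equation (W : WeierstrassCurve F) (C : VariableChange F) (x y : F) :
    (C • W).toAffine.Equation x y ↔ W.toAffine.Equation (vcX C x) (vcY C x y) := by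
  have hu : (C.u : F) ^ 6 ≠ 0 := pow_ne_zero _ C.u.ne_zero
  rw [equation_iff', equation_iff', VarChange_poly, mul_eq_zero, or_iff_right hu]

/-- LEAF VC-A. -/
theorem vc_nonsingular (W : WeierstrassCurve F) (C : VariableChange F) (x y : F) :
    (C • W).toAffine.Nonsingular x y ↔ W.toAffine.Nonsingular (vcX C x) (vcY C x y) := by
  have hu3 : (C.u : F) ^ 3 ≠ 0 := pow_ne_zero _ C.u.ne_zero
  have hu4 : (C.u : F) ^ 4 ≠ 0 := pow_ne_zero _ C.u.ne_zero
  rw [nonsingular_iff', nonsingular_iff', ← vc_equation, VarChange_polyX, VarChange_polyY]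
  refine and_congr_right fun _ => ?_
  set A := (C • W).toAffine.a₁ * y - (3 * x ^ 2 + 2 * (C • W).toAffine.a₂ * x + (C • W).toAffine.a₄)
  set B := 2 * y + (C • W).toAffine.a₁ * x + (C • W).toAffine.a₃
  by_cases hB : B = 0
  · simp [hB, hu4]
  · simp [hB, hu3]

/-- the map on points. -/
noncomputable def vcFun (W : WeierstrassCurve F) (C : VariableChange F) :
    (C • W).toAffine.Point → W.toAffine.Point
  | .zero => .zero
  | .some x y h => .some (vcX C x) (vcY C x y) ((vc_nonsingular W C x y).mp h)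

theorem vcFun_zero (W : WeierstrassCurve F) (C : VariableChange F) : vcFun W C 0 = 0 := rfl

theorem vcFun_some (W : WeierstrassCurve F) (C : VariableChange F) (x y : F)
    (h : (C • W).toAffine.Nonsingular x y) :
    vcFun W C (.some x y h) = .some (vcX C x) (vcY C x y) ((vc_nonsingular W C x y).mp h) := rfl

theorem VarChange_vcX_inj (C : VariableChange F) {x x' : F} : vcX C x = vcX C x' ↔ x = x' := by
  have hu : (C.u : F) ^ 2 ≠ 0 := pow_ne_zero _ C.u.ne_zero
  unfold vcX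
  rw [add_left_inj, mul_right_inj' hu]

theorem VarChange_vcY_inj (C : VariableChange F) {x y y' : F} :
    vcY C x y = vcY C x y' ↔ y = y' := by
  have hu : (C.u : F) ^ 3 ≠ 0 := pow_ne_zero _ C.u.ne_zero
  unfold vcY
  rw [add_left_inj, add_left_inj, mul_right_inj' hu]

/-- LEAF VC-A.  Injective because `u ≠ 0`; surjective: solve for `x, y`. -/
theorem vcFun_bijective (W : WeierstrassCurve F) (C : VariableChange F) :
    Function.Bijective (vcFun W C) := by
  have hu : (C.u : F) ≠ 0 := C.u.ne_zero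
  constructor
  · rintro (_ | ⟨x, y, h⟩) (_ | ⟨x', y', h'⟩) hPQ
    · rfl
    · exact absurd hPQ (by simp [vcFun])
    · exact absurd hPQ (by simp [vcFun])
    · simp only [vcFun, Point.some.injEq] at hPQ
      obtain ⟨h1, h2⟩ := hPQ
      obtain rfl := (VarChange_vcX_inj C).1 h1
      obtain rfl := (VarChange_vcY_inj C).1 h2
      rfl
  · rintro (_ | ⟨X, Y, h⟩)
    · exact ⟨.zero, rfl⟩
    · have hX : vcX C ((X - C.r) / (C.u : F) ^ 2) = X := by
        unfold vcX; field_simp; ring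
      have hY : vcY C ((X - C.r) / (C.u : F) ^ 2)
          ((Y - C.s * (X - C.r) - C.t) / (C.u : F) ^ 3) = Y := by
        unfold vcY; field_simp; ring
      have h' : (C • W).toAffine.Nonsingular ((X - C.r) / (C.u : F) ^ 2)
          ((Y - C.s * (X - C.r) - C.t) / (C.u : F) ^ 3) := by
        rw [vc_nonsingular, hX, hY]; exact h
      refine ⟨.some _ _ h', ?_⟩
      simp only [vcFun, Point.some.injEq]
      exact ⟨hX, hY⟩

/-- LEAF VC-B.  `negY` is compatible. -/
theorem vc_negY (W : WeierstrassCurve F) (C : VariableChange F) (x y : F) :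
    W.toAffine.negY (vcX C x) (vcY C x y) = vcY C x ((C • W).toAffine.negY x y) := by
  obtain ⟨h1, h2, h3, h4, h6⟩ := VarChange_coeffs W C
  unfold vcX vcY negY
  linear_combination ((C.u : F) ^ 2 * x) * h1 + h3

variable [DecidableEq F]

/-- LEAF VC-B.  `slope` is compatible: `λ_W = u λ_{C•W} + s`, in the three cases of the definition
of `slope` (`slope_of_X_ne`, `slope_of_Y_ne`; the case `y₁ = negY` is excluded).  The two points have to
lie on the curve (otherwise the tangent case divides by zero and the statement is false). -/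
theorem vc_slope (W : WeierstrassCurve F) (C : VariableChange F) (x₁ x₂ y₁ y₂ : F)
    (h₁ : (C • W).toAffine.Equation x₁ y₁) (h₂ : (C • W).toAffine.Equation x₂ y₂)
    (h : ¬(x₁ = x₂ ∧ y₁ = (C • W).toAffine.negY x₂ y₂)) :
    W.toAffine.slope (vcX C x₁) (vcX C x₂) (vcY C x₁ y₁) (vcY C x₂ y₂) =
      (C.u : F) * (C • W).toAffine.slope x₁ x₂ y₁ y₂ + C.s := by
  have hu : (C.u : F) ≠ 0 := C.u.ne_zero
  by_cases hx : x₁ = x₂
  · subst hx
    have hy : y₁ ≠ (C • W).toAffine.negY x₁ y₂ := fun hy => h ⟨rfl, hy⟩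
    obtain rfl : y₁ = y₂ := Y_eq_of_Y_ne h₁ h₂ rfl hy
    have hY : vcY C x₁ y₁ ≠ W.toAffine.negY (vcX C x₁) (vcY C x₁ y₁) := by
      rw [vc_negY, Ne, VarChange_vcY_inj]; exact hy
    rw [slope_of_Y_ne rfl hy, slope_of_Y_ne rfl hY]
    have hB : y₁ - (C • W).toAffine.negY x₁ y₁ ≠ 0 := sub_ne_zero.2 hy
    have hB' : vcY C x₁ y₁ - W.toAffine.negY (vcX C x₁) (vcY C x₁ y₁) ≠ 0 := sub_ne_zero.2 hY
    have e1 := VarChange_polyX W C x₁ y₁
    have e2 := VarChange_polyY W C x₁ y₁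
    have e3 : vcY C x₁ y₁ - W.toAffine.negY (vcX C x₁) (vcY C x₁ y₁) =
        (C.u : F) ^ 3 * (y₁ - (C • W).toAffine.negY x₁ y₁) := by
      simp only [negY]
      linear_combination e2
    rw [e3, div_eq_iff (mul_ne_zero (pow_ne_zero _ hu) hB)]
    have e4 : ((C.u : F) * ((3 * x₁ ^ 2 + 2 * (C • W).toAffine.a₂ * x₁ + (C • W).toAffine.a₄
        - (C • W).toAffine.a₁ * y₁) / (y₁ - (C • W).toAffine.negY x₁ y₁)) + C.s) *
        ((C.u : F) ^ 3 * (y₁ - (C • W).toAffine.negY x₁ y₁)) =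
        (C.u : F) ^ 4 * (3 * x₁ ^ 2 + 2 * (C • W).toAffine.a₂ * x₁ + (C • W).toAffine.a₄
        - (C • W).toAffine.a₁ * y₁) + C.s * ((C.u : F) ^ 3 * (y₁ - (C • W).toAffine.negY x₁ y₁)) := by
      field_simp
    rw [e4]
    simp only [negY]
    linear_combination -e1
  · have hX : vcX C x₁ ≠ vcX C x₂ := fun hX => hx ((VarChange_vcX_inj C).1 hX)
    rw [slope_of_X_ne hx, slope_of_X_ne hX]
    have h12 : x₁ - x₂ ≠ 0 := sub_ne_zero.2 hx
    have e1 : vcX C x₁ - vcX C x₂ = (C.u : F) ^ 2 * (x₁ - x₂) := by unfold vcX; ring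
    rw [e1]
    unfold vcY
    field_simp
    ring

/-- LEAF VC-B.  Additivity -/
theorem vcFun_add (W : WeierstrassCurve F) (C : VariableChange F)
    (P Q : (C • W).toAffine.Point) : vcFun W C (P + Q) = vcFun W C P + vcFun W C Q := by
  obtain ⟨h1, h2, h3, h4, h6⟩ := VarChange_coeffs W C
  rcases P with _ | ⟨x₁, y₁, hP⟩
  · show vcFun W C (0 + Q) = 0 + vcFun W C Q
    rw [zero_add, zero_add]
  rcases Q with _ | ⟨x₂, y₂, hQ⟩
  · show vcFun W C (Point.some x₁ y₁ hP + 0) = vcFun W C (Point.some x₁ y₁ hP) + 0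
    rw [add_zero, add_zero]
  by_cases hxy : x₁ = x₂ ∧ y₁ = (C • W).toAffine.negY x₂ y₂
  · obtain ⟨hx, hy⟩ := hxy
    rw [Point.add_of_Y_eq hx hy, vcFun_some, vcFun_some, Point.add_of_Y_eq (by rw [hx])
      (by rw [vc_negY, hy, hx])]
    rfl
  · have hXY : ¬(vcX C x₁ = vcX C x₂ ∧ vcY C x₁ y₁ = W.toAffine.negY (vcX C x₂) (vcY C x₂ y₂)) := by
      rintro ⟨hX, hY⟩
      obtain rfl := (VarChange_vcX_inj C).1 hX
      rw [vc_negY, VarChange_vcY_inj] at hY
      exact hxy ⟨rfl, hY⟩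
    rw [Point.add_some hxy, vcFun_some, vcFun_some, vcFun_some, Point.add_some hXY]
    have hs := vc_slope W C x₁ x₂ y₁ y₂ hP.1 hQ.1 hxy
    set ℓ := (C • W).toAffine.slope x₁ x₂ y₁ y₂
    have hXadd : vcX C ((C • W).toAffine.addX x₁ x₂ ℓ) =
        W.toAffine.addX (vcX C x₁) (vcX C x₂) ((C.u : F) * ℓ + C.s) := by
      unfold vcX addX
      linear_combination ((C.u : F) * ℓ) * h1 - h2
    have hYadd : vcY C ((C • W).toAffine.addX x₁ x₂ ℓ) ((C • W).toAffine.addY x₁ x₂ y₁ ℓ) =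
        W.toAffine.addY (vcX C x₁) (vcX C x₂) (vcY C x₁ y₁) ((C.u : F) * ℓ + C.s) := by
      rw [addY, addY, ← vc_negY, ← hXadd]
      congr 1
      rw [negAddY, negAddY, ← hXadd]
      unfold vcX vcY
      ring
    simp only [Point.some.injEq]
    rw [hs]
    exact ⟨hXadd, hYadd⟩

/-- the isomorphism of groups attached to a change of variables (unbundled: the target curve is
only propositionally equal to `C • W`, to avoid transports in the applications). -/
noncomputable def vcEquiv {W W' : WeierstrassCurve F} (C : VariableChange F) (h : C • W = W') :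
    W'.toAffine.Point ≃+ W.toAffine.Point :=
  h ▸ AddEquiv.mk' (Equiv.ofBijective (vcFun W C) (vcFun_bijective W C)) (vcFun_add W C)

theorem vcEquiv_some {W W' : WeierstrassCurve F} (C : VariableChange F) (h : C • W = W')
    (x y : F) (hxy : W'.toAffine.Nonsingular x y) :
    ∃ h', vcEquiv C h (.some x y hxy) = .some (vcX C x) (vcY C x y) h' := by
  subst h
  exact ⟨_, rfl⟩

end Fermat.Agent.Lib.Ell
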